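import Fermat.Agent.GD.Global.SUnits.Places

/-!
# A finite set of primes killing the class groups below a level
-/

set_option autoImplicit false
set_option linter.style.haveILetI false
set_option linter.unusedSectionVars false

noncomputable section

namespace Fermat.Agent.GD

open Fermat.Agent.Galois
open scoped Pointwise NumberField nonZeroDivisors

local notation "ℚb" => AlgebraicClosure ℚ

variable {T : Finset Nat.Primes}

/-- Every ideal class of the field contains an ideal of norm prime to the primes outside `T'`. -/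
def ClassesIn (T' : Finset Nat.Primes) (F : IntermediateField ℚ ℚb) [NumberField F] : Prop :=
  ∀ c : ClassGroup (𝓞 F), ∃ I : (Ideal (𝓞 F))⁰, ClassGroup.mk0 I = c ∧
    ∀ q : Nat.Primes, q ∉ T' → ¬ (q : ℕ) ∣ Ideal.absNorm (I : Ideal (𝓞 F))

/-- A generator of a prime times an ideal of norm prime to the primes outside `T'`. -/
theorem exists_gen_prime {F : IntermediateField ℚ ℚb} [NumberField F] {T' : Finset Nat.Primes}
    (hcl : ClassesIn T' F) {P : Ideal (𝓞 F)} (hP0 : P ≠ ⊥) :
    ∃ (π : 𝓞 F) (n : ℕ), π ≠ 0 ∧ π ∈ P ∧ (∀ q : Nat.Primes, q ∉ T' → ¬ (q : ℕ) ∣ n) ∧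
      ∀ z ∈ P, ∃ w : 𝓞 F, z * (n : 𝓞 F) = π * w := by
  obtain ⟨I, hcls, hnorm⟩ := hcl (ClassGroup.mk0 ⟨P, mem_nonZeroDivisors_of_ne_zero hP0⟩)⁻¹
  have h1 : ClassGroup.mk0 (⟨P, mem_nonZeroDivisors_of_ne_zero hP0⟩ * I : (Ideal (𝓞 F))⁰) = 1 := by
    rw [map_mul, hcls, mul_inv_cancel]
  have hprinc := (ClassGroup.mk0_eq_one_iff _).mp h1
  obtain ⟨π, hπ⟩ := hprinc.principal
  have hπ' : P * (I : Ideal (𝓞 F)) = Ideal.span {π} := hπ
  refine ⟨π, Ideal.absNorm (I : Ideal (𝓞 F)), fun h => ?_,
    Ideal.mul_le_left (hπ' ▸ Ideal.mem_span_singleton_self π), hnorm, fun z hz => ?_⟩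
  · rw [h, Ideal.span_singleton_eq_bot.mpr rfl, Ideal.mul_eq_bot] at hπ'
    exact hπ'.elim hP0 fun hI0 => nonZeroDivisors.ne_zero I.2 hI0
  · have h2 : z * ((Ideal.absNorm (I : Ideal (𝓞 F)) : ℕ) : 𝓞 F) ∈ Ideal.span {π} :=
      hπ' ▸ Ideal.mul_mem_mul hz (Ideal.absNorm_mem _)
    obtain ⟨w, hw⟩ := Ideal.mem_span_singleton'.mp h2
    exact ⟨w, by rw [← hw, mul_comm]⟩

theorem natCast_coe_int {F : IntermediateField ℚ ℚb} (n : ℕ) :
    (((n : 𝓞 F) : F) : ℚb) = n := by simp

theorem valuation_apply_natCast (A : ValuationSubring ℚb) (g : GQ) {F : IntermediateField ℚ ℚb}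
    (n : ℕ) : A.valuation (g (((n : 𝓞 F) : F) : ℚb)) = A.valuation (n : ℚb) := by
  rw [natCast_coe_int, map_natCast]

/-- Comparison of the values in a product. -/
theorem valuation_le_of_mul_eq {F : IntermediateField ℚ ℚb} {q : Nat.Primes} {n : ℕ}
    (hn : ¬ (q : ℕ) ∣ n) (g : GQ) {z w π : 𝓞 F} (h : z * (n : 𝓞 F) = π * w) :
    (placeAt q).valuation (g ((z : F) : ℚb)) ≤ (placeAt q).valuation (g ((π : F) : ℚb)) := by
  have h1 := congrArg (fun a : 𝓞 F => (placeAt q).valuation (g ((a : F) : ℚb))) h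
  push_cast at h1
  rw [map_mul, map_mul, map_mul, map_mul, map_natCast, valuation_natCast_eq_one q.2 (placeAt_liesOverPrime q) hn,
    mul_one] at h1
  rw [h1]
  exact mul_le_of_le_one_right' (valuation_smul_int_le_one g w)

theorem isOpen_of_level_le {N H : Subgroup (LT T).G} (hN : (LT T).IsLevel N) (hle : N ≤ H) :
    (LT T).IsOpen H := ⟨N, hN, hle⟩

theorem finiteDimensional_fixed {N H : Subgroup GQ} (hN : (LT T).IsLevel N) (hle : N ≤ H) :
    FiniteDimensional ℚ (IntermediateField.fixedField H : IntermediateField ℚ ℚb) := by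
  obtain ⟨F, hF, rfl, -⟩ := hN
  haveI := hF.1
  have hsub : (IntermediateField.fixedField H : IntermediateField ℚ ℚb) ≤ F := by
    intro x hx
    rw [← InfiniteGalois.fixedField_fixingSubgroup F, IntermediateField.mem_fixedField_iff]
    exact fun g hg => (IntermediateField.mem_fixedField_iff H x).mp hx g (hle hg)
  exact Module.Finite.of_injective (IntermediateField.inclusion hsub).toLinearMap
    (IntermediateField.inclusion hsub).injective

theorem unram_level {N : Subgroup GQ} (hN : (LT T).IsLevel N) {q : Nat.Primes} (hq : q ∉ T) :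
    Unram (q := q) (N.subgroupOf (decomp (some q))) := by
  obtain ⟨F, hF, rfl, hn⟩ := hN
  haveI := hn
  have hlev : (LD (some q)).IsLevel (F.fixingSubgroup.subgroupOf (decomp (some q))) :=
    ⟨_, ⟨F, hF.1, rfl, hn⟩, rfl⟩
  exact ⟨⟨_, hlev, le_rfl⟩, Subgroup.normal_subgroupOf, fun s hs =>
    Subgroup.mem_subgroupOf.mpr (hF.2 q hq (placeAt q) (placeAt_liesOverPrime q) hs)⟩

/-- An element with a single zero among the places outside `T'`. -/
theorem exists_single {N H : Subgroup GQ} (hN : (LT T).IsLevel N) (hle : N ≤ H)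
    {F : IntermediateField ℚ ℚb} [NumberField F] (hfix : F.fixingSubgroup = H)
    {T' : Finset Nat.Primes} (hT : T ⊆ T') (hcl : ClassesIn T' F) {q : Nat.Primes} (hq : q ∉ T')
    (c : GQ) :
    ∃ x : ℚbˣ, (∀ h ∈ H, h • x = x) ∧
      (∀ g, DoubleCoset.mk (decomp (some q)) H g = DoubleCoset.mk (decomp (some q)) H c →
        (placeAt q).valuation ((g • x : ℚbˣ) : ℚb) = (placeAt q).valuation ((q : ℕ) : ℚb)) ∧
      ∀ q' ∉ T', ∀ g, (q' ≠ q ∨
          DoubleCoset.mk (decomp (some q)) H g ≠ DoubleCoset.mk (decomp (some q)) H c) →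
        (placeAt q').valuation ((g • x : ℚbˣ) : ℚb) = 1 := by
  have hA := placeAt_liesOverPrime q
  have hAc := liesOverPrime_smul hA c⁻¹
  have hqP : ((q : ℕ) : 𝓞 F) ∈ primeUnder F (c⁻¹ • placeAt q) :=
    (natCast_mem_primeUnder q.2 hAc q).mpr dvd_rfl
  have hPmax : (primeUnder F (c⁻¹ • placeAt q)).IsMaximal := isMaximal_primeUnder q.2 hAc
  have hP0 : primeUnder F (c⁻¹ • placeAt q) ≠ ⊥ := fun h => by
    rw [h, Ideal.mem_bot] at hqP
    exact q.2.ne_zero (by exact_mod_cast hqP)
  obtain ⟨π, n, hπ0, hπP, hn, hdiv⟩ := exists_gen_prime hcl hP0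
  have hπb : ((π : F) : ℚb) ≠ 0 := by exact_mod_cast hπ0
  have hHfix : ∀ h ∈ H, ∀ x ∈ F, h x = x := fun h hh x hx =>
    (IntermediateField.mem_fixingSubgroup_iff F h).mp (hfix ▸ hh) x hx
  refine ⟨Units.mk0 _ hπb, fun h hh => Units.ext (hHfix h hh _ (π : F).2), fun g hg => ?_,
    fun q' hq' g hne => ?_⟩
  · obtain ⟨d, hd, h, hh, rfl⟩ := (DoubleCoset.eq _ _ c g).mp hg.symm
    show (placeAt q).valuation ((d * c * h) ((π : F) : ℚb)) = _
    rw [AlgEquiv.mul_apply, AlgEquiv.mul_apply, hHfix h hh _ (π : F).2,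
      Galois.valuation_apply_eq (σ := d) hd]
    have hlt : (placeAt q).valuation (c ((π : F) : ℚb)) < 1 :=
      (valuation_smul_lt_one_iff _ _ _).mpr (mem_primeUnder.mp hπP)
    -- an integral power of the prime
    have hy : c ((π : F) : ℚb) ∈ fieldOf (N.subgroupOf (decomp (some q))) := fun s hs => by
      have hs' : (toGQ s) ∈ N := Subgroup.mem_subgroupOf.mp hs
      have h1 : c⁻¹ * toGQ s * c ∈ H := hle (by
        have := ((LT T).normal N hN).conj_mem _ hs' c⁻¹
        simpa using! this)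
      have h2 := hHfix _ h1 _ (π : F).2
      rw [AlgEquiv.mul_apply, AlgEquiv.mul_apply] at h2
      have h3 := congrArg c h2
      rwa [← AlgEquiv.mul_apply, mul_inv_cancel, AlgEquiv.one_apply] at h3
    obtain ⟨k, hk⟩ := exists_val_eq_zpow_of_inertia (unram_level hN fun h => hq (hT h)) le_rfl hy
      ((map_ne_zero c).mpr hπb)
    obtain ⟨w, hw⟩ := hdiv _ hqP
    have hge := valuation_le_of_mul_eq (hn q hq) c hw
    rw [valuation_apply_natCast] at hge
    rw [hk] at hlt hge ⊢
    have hv1 := natCast_val_lt_one hA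
    have hv0 : 0 < (placeAt q).valuation ((q : ℕ) : ℚb) :=
      zero_lt_iff.mpr (natCast_val_ne_zero q.2)
    have hk1 : 0 < k := by
      by_contra hc
      exact absurd hlt (not_lt.mpr (one_le_zpow_of_nonpos₀ hv0 hv1.le (not_lt.mp hc)))
    have hk2 : k ≤ 1 := by
      by_contra hc
      have h2 := zpow_lt_zpow_right_of_lt_one₀ hv0 hv1 (not_le.mp hc)
      rw [zpow_one] at h2
      exact absurd hge (not_le.mpr h2)
    rw [show k = 1 by omega, zpow_one]
  · show (placeAt q').valuation (g ((π : F) : ℚb)) = 1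
    refine le_antisymm (valuation_smul_int_le_one g π) ?_
    have hAg := liesOverPrime_smul (placeAt_liesOverPrime q') g⁻¹
    have hne' : ¬ primeUnder F (c⁻¹ • placeAt q) ≤ primeUnder F (g⁻¹ • placeAt q') := by
      intro hP'
      have heq := hPmax.eq_of_le (isMaximal_primeUnder (F := F) q'.2 hAg).ne_top hP'
      have h1 := hqP
      rw [heq, natCast_mem_primeUnder q'.2 hAg] at h1
      have hqq : q' = q := Subtype.ext ((Nat.prime_dvd_prime_iff_eq q'.2 q.2).mp h1)
      subst hqq
      obtain ⟨h, hh, hA'⟩ := exists_smul_eq_of_primeUnder_eq q'.2 hAc hAg heq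
      rw [hfix] at hh
      have hd : g * h * c⁻¹ ∈ decomp (some q') := by
        show g * h * c⁻¹ ∈ MulAction.stabilizer GQ (placeAt q')
        rw [MulAction.mem_stabilizer_iff, mul_smul, mul_smul, ← hA', smul_inv_smul]
      exact hne.resolve_left (not_not.mpr rfl) ((DoubleCoset.eq _ _ g c).mpr
        ⟨(g * h * c⁻¹)⁻¹, inv_mem hd, h, hh, by group⟩)
    obtain ⟨z, hzP, hz⟩ := SetLike.not_le_iff_exists.mp hne'
    obtain ⟨w, hw⟩ := hdiv z hzP
    refine le_trans (le_of_eq ?_) (valuation_le_of_mul_eq (hn q' hq') g hw)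
    exact (le_antisymm (valuation_smul_int_le_one g z)
      (not_lt.mp fun h => hz ((mem_primeUnder_smul g).mpr h))).symm

/-- The value of the translate of a unit. -/
def valHom (q : Nat.Primes) (g : GQ) : ℚbˣ →* (placeAt q).ValueGroup :=
  (((placeAt q).valuation.toMonoidWithZeroHom : ℚb →* (placeAt q).ValueGroup).comp
    (Units.coeHom ℚb)).comp
    (MulDistribMulAction.toMonoidHom ℚbˣ g)

/-- Some finite set of primes kills the class groups below a level. -/
theorem exists_isBig_eq {N : Subgroup GQ} (hN : (LT T).IsLevel N) :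
    ∃ T' : Finset Nat.Primes, T ⊆ T' ∧ ∀ T'' : Finset Nat.Primes, T' ⊆ T'' → IsBig T'' N := by
  classical
  haveI hNfi : N.FiniteIndex := (LT T).finiteIndex N hN
  haveI : Finite {H : Subgroup GQ // N ≤ H} := by
    refine Finite.of_injective
      (fun H : {H : Subgroup GQ // N ≤ H} => {x : GQ ⧸ N | x.out ∈ H.1}) fun H H' h => ?_
    refine Subtype.ext (SetLike.ext fun g => ?_)
    have hmem : ∀ K : {H : Subgroup GQ // N ≤ H}, g ∈ K.1 ↔ (g : GQ ⧸ N).out ∈ K.1 := fun K => by
      obtain ⟨s, hs⟩ := QuotientGroup.mk_out_eq_mul N g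
      rw [hs]
      exact (K.1.mul_mem_cancel_right (K.2 s.2)).symm
    rw [hmem H, hmem H']
    exact Set.ext_iff.mp h (g : GQ ⧸ N)
  -- primes for one group
  have hone : ∀ H : {H : Subgroup GQ // N ≤ H}, ∃ S : Finset Nat.Primes,
      ∀ T', S ⊆ T' → ∀ _ : NumberField (IntermediateField.fixedField H.1 : IntermediateField ℚ ℚb),
        ClassesIn T' (IntermediateField.fixedField H.1 : IntermediateField ℚ ℚb) := by
    intro H
    haveI := finiteDimensional_fixed hN H.2
    haveI : NumberField (IntermediateField.fixedField H.1 : IntermediateField ℚ ℚb) := NumberField.mk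
    choose I hI using ClassGroup.mk0_surjective
      (R := 𝓞 (IntermediateField.fixedField H.1 : IntermediateField ℚ ℚb))
    have hfin : Set.Finite {q : Nat.Primes | ∃ c, (q : ℕ) ∣ Ideal.absNorm (I c).1} := by
      rw [show {q : Nat.Primes | ∃ c, (q : ℕ) ∣ Ideal.absNorm (I c).1} =
        ⋃ c, {q : Nat.Primes | (q : ℕ) ∣ Ideal.absNorm (I c).1} by ext; simp]
      refine Set.finite_iUnion fun c => ?_
      have h0 : Ideal.absNorm (I c).1 ≠ 0 := fun h =>
        nonZeroDivisors.ne_zero (I c).2 (Ideal.absNorm_eq_zero_iff.mp h)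
      exact Set.Finite.of_finite_image ((Set.finite_Iic (Ideal.absNorm (I c).1)).subset
        (by rintro _ ⟨q, hq, rfl⟩; exact Nat.le_of_dvd (Nat.pos_of_ne_zero h0) hq))
        Subtype.val_injective.injOn
    refine ⟨hfin.toFinset, fun T' hT' _ c => ⟨I c, hI c, fun q hq hd => ?_⟩⟩
    exact hq (hT' (hfin.mem_toFinset.mpr ⟨c, hd⟩))
  choose S hS using hone
  letI := Fintype.ofFinite {H : Subgroup GQ // N ≤ H}
  refine ⟨T ∪ Finset.univ.biUnion S, Finset.subset_union_left, fun T'' hT'' H hle f hf => ?_⟩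
  have hT : T ⊆ T'' := Finset.subset_union_left.trans hT''
  haveI := finiteDimensional_fixed hN hle
  haveI : NumberField (IntermediateField.fixedField H : IntermediateField ℚ ℚb) := NumberField.mk
  have hcl : ClassesIn T'' (IntermediateField.fixedField H : IntermediateField ℚ ℚb) :=
    hS ⟨H, hle⟩ T'' (fun q hq =>
      hT'' (Finset.mem_union_right _ (Finset.mem_biUnion.mpr ⟨⟨H, hle⟩, Finset.mem_univ _, hq⟩))) inferInstance
  have hfix : (IntermediateField.fixedField H : IntermediateField ℚ ℚb).fixingSubgroup = H :=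
    fixingSubgroup_fixedField_open (T := T) (H := H) (isOpen_of_level_le hN hle)
  haveI : H.FiniteIndex := Subgroup.finiteIndex_of_le hle
  haveI hfinDC : ∀ q : Nat.Primes,
      Finite (DoubleCoset.Quotient (decomp (some q) : Set GQ) (H : Set GQ)) := fun q =>
    Finite.of_surjective (fun x : GQ ⧸ H => DoubleCoset.mk (decomp (some q)) H x.out) fun y => by
      induction y using Quotient.inductionOn' with
      | _ g =>
        refine ⟨(g : GQ ⧸ H), ?_⟩
        obtain ⟨s, hs⟩ := QuotientGroup.mk_out_eq_mul H g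
        exact (DoubleCoset.eq _ _ _ _).mpr ⟨1, one_mem _, (s : GQ)⁻¹, inv_mem s.2, by
          rw [hs]; group⟩
  have hinv : ∀ (v : Place) (g h : GQ), h ∈ H → f.1 v (g * h) = f.1 v g := fun v g h hh =>
    congrFun (congrFun (hf h hh) v) g
  -- the values of the idele
  have hk : ∀ q : Nat.Primes, q ∉ T'' → ∀ g, ∃ k : ℤ,
      (placeAt q).valuation ((f.1 (some q) g : ℚbˣ) : ℚb) =
        (placeAt q).valuation ((q : ℕ) : ℚb) ^ k := fun q hq g => by
    refine exists_val_eq_zpow_of_inertia (unram_level hN fun h => hq (hT h)) le_rfl ?_ (Units.ne_zero _)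
    intro s hs
    have hs' : toGQ s ∈ N := Subgroup.mem_subgroupOf.mp hs
    have h1 := f.2.1 (some q) (toGQ s) (show decomp (some q) from s).2 g
    rw [show toGQ s * g = g * (g⁻¹ * toGQ s * g) by group, hinv _ _ _ (hle (by
      have := ((LT T).normal N hN).conj_mem _ hs' g⁻¹
      simpa using! this))] at h1
    exact (congrArg Units.val h1).symm
  choose k hk using hk
  have hsing := fun (q : Nat.Primes) (hq : q ∉ T'') (c : GQ) => exists_single hN hle hfix hT hcl hq c
  choose π hπH hπone hπother using hsing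
  have hbad : Set.Finite {q : Nat.Primes | q ∉ T'' ∧
      ∃ g, f.1 (some q) g ∉ (placeAt q).unitGroup} := f.2.2.2.subset fun q hq => hq.2
  haveI : Finite {q : Nat.Primes // q ∉ T'' ∧ ∃ g, f.1 (some q) g ∉ (placeAt q).unitGroup} :=
    hbad.to_subtype
  letI := Fintype.ofFinite {q : Nat.Primes // q ∉ T'' ∧ ∃ g, f.1 (some q) g ∉ (placeAt q).unitGroup}
  letI hDC := fun q : Nat.Primes =>
    Fintype.ofFinite (DoubleCoset.Quotient (decomp (some q) : Set GQ) (H : Set GQ))
  refine ⟨∏ q : {q : Nat.Primes // q ∉ T'' ∧ ∃ g, f.1 (some q) g ∉ (placeAt q).unitGroup},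
    ∏ c : DoubleCoset.Quotient (decomp (some q.1) : Set GQ) (H : Set GQ),
      π q.1 q.2.1 c.out ^ k q.1 q.2.1 c.out, fun h hh => ?_, fun q' hq' g => ?_⟩
  · show h • _ = _
    rw [Finset.smul_prod']
    refine Finset.prod_congr rfl fun q _ => ?_
    rw [Finset.smul_prod']
    refine Finset.prod_congr rfl fun c _ => ?_
    rw [smul_zpow', hπH _ _ _ h hh]
  · have hv0 : (placeAt q').valuation ((q' : ℕ) : ℚb) ≠ 0 := natCast_val_ne_zero q'.2
    have hterm : valHom q' g (∏ q : {q : Nat.Primes // q ∉ T'' ∧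
        ∃ g, f.1 (some q) g ∉ (placeAt q).unitGroup},
        ∏ c : DoubleCoset.Quotient (decomp (some q.1) : Set GQ) (H : Set GQ),
          π q.1 q.2.1 c.out ^ k q.1 q.2.1 c.out) =
        (placeAt q').valuation ((f.1 (some q') g : ℚbˣ) : ℚb) := by
      rw [map_prod]
      by_cases hmem : ∃ g', f.1 (some q') g' ∉ (placeAt q').unitGroup
      · rw [Finset.prod_eq_single (⟨q', hq', hmem⟩ : {q : Nat.Primes // q ∉ T'' ∧
            ∃ g, f.1 (some q) g ∉ (placeAt q).unitGroup}) (fun q _ hne => ?_)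
            (fun h => absurd (Finset.mem_univ _) h), map_prod,
          Finset.prod_eq_single (DoubleCoset.mk (decomp (some q')) H g) (fun c _ hne => ?_)
            (fun h => absurd (Finset.mem_univ _) h), map_zpow]
        · obtain ⟨d, h, hd, hh, hout⟩ := DoubleCoset.mk_out_eq_mul (decomp (some q')) H g
          show (placeAt q').valuation ((g • π q' hq' _ : ℚbˣ) : ℚb) ^
            k q' hq' (DoubleCoset.mk (decomp (some q')) H g).out = _
          rw [hπone q' hq' _ g (DoubleCoset.out_eq' _ _ _).symm, ← hk q' hq']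
          rw [hout, hinv _ _ _ hh, f.2.1 (some q') d hd g]
          exact Galois.valuation_apply_eq (σ := d) hd _
        · rw [map_zpow]
          exact (congrArg (· ^ _) (hπother q' hq' _ q' hq' g
            (Or.inr fun e => hne (by rw [← DoubleCoset.out_eq' _ _ c, e])))).trans (one_zpow _)
        · rw [map_prod]
          refine Finset.prod_eq_one fun c _ => ?_
          rw [map_zpow]
          exact (congrArg (· ^ _) (hπother q.1 q.2.1 _ q' hq' g
              (Or.inl fun e => hne (Subtype.ext e.symm)))).trans (one_zpow _)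
      · push Not at hmem
        rw [(ValuationSubring.mem_unitGroup_iff _ _).mp (hmem g)]
        refine Finset.prod_eq_one fun q _ => ?_
        rw [map_prod]
        refine Finset.prod_eq_one fun c _ => ?_
        rw [map_zpow]
        exact (congrArg (· ^ _) (hπother q.1 q.2.1 _ q' hq' g
            (Or.inl fun e => q.2.2.elim fun g' hg' => hg' (e ▸ hmem g')))).trans (one_zpow _)
    rw [ValuationSubring.mem_unitGroup_iff, div_eq_mul_inv, Units.val_mul, map_mul,
      Units.val_inv_eq_inv_val, map_inv₀, ← hterm]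
    exact mul_inv_cancel₀ (hterm ▸ (Valuation.ne_zero_iff _).mpr (Units.ne_zero _))

end Fermat.Agent.GD
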