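import Fermat.Agent.GD.Global.SUnits.Log

/-!
# Units away from `T` modulo `p`-th powers
-/

set_option autoImplicit false
set_option linter.style.haveILetI false
set_option linter.unusedSectionVars false

noncomputable section

namespace Fermat.Agent.GD

open Fermat.Agent.Galois

local notation "ℚb" => AlgebraicClosure ℚ
local notation "Cu" => Additive (AlgebraicClosure ℚ)ˣ

variable {T : Finset Nat.Primes} {p : ℕ} [hpf : Fact p.Prime] {H N : Subgroup GQ}

/-- Equivariant maps into units modulo powers as maps into a subquotient. -/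
theorem card_homPowers_gen (M : Type) [AddCommGroup M] [DistribMulAction GQ M] (U : Subgroup ℚbˣ)
    (hst : StableUnder H U.toAddSubgroup) :
    Nat.card {φ : M →+ Additive (U ⧸ powers p U) //
      ∀ h ∈ H, ∀ (m : M) (x y : U), φ m = Additive.ofMul (QuotientGroup.mk x) →
        (y : ℚbˣ) = h • (x : ℚbˣ) → φ (h • m) = Additive.ofMul (QuotientGroup.mk y)} =
      cQ M H U.toAddSubgroup (U.toAddSubgroup.map (nsmulAddMonoidHom p)) := by
  set R := U.toAddSubgroup
  set Tp := R.map (nsmulAddMonoidHom p)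
  have hT : StableUnder H Tp := by
    rintro h hh _ ⟨x, hx, rfl⟩
    exact ⟨h • x, hst h hh x hx, smul_comm p h x⟩
  let f : R →+ Additive (U ⧸ powers p U) :=
    { toFun := fun x => Additive.ofMul (QuotientGroup.mk (⟨(x : Cu).toMul, x.2⟩ : U))
      map_zero' := rfl
      map_add' := fun _ _ => rfl }
  have hf : Function.Surjective f := fun z => by
    obtain ⟨x, hx⟩ := QuotientGroup.mk_surjective z.toMul
    exact ⟨⟨Additive.ofMul x.1, x.2⟩, congrArg Additive.ofMul hx⟩
  have hker : ∀ x : R, f x = 0 ↔ (x : Cu) ∈ Tp := fun x => by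
    refine (QuotientGroup.eq_one_iff (⟨(x : Cu).toMul, x.2⟩ : U)).trans ⟨?_, ?_⟩
    · rintro ⟨y, hy⟩
      exact ⟨Additive.ofMul y.1, y.2,
        congrArg (fun z : U => Additive.ofMul (z : ℚbˣ)) hy⟩
    · rintro ⟨y, hy, hyx⟩
      exact ⟨⟨y.toMul, hy⟩, Subtype.ext (congrArg Additive.toMul hyx)⟩
  obtain ⟨e, he⟩ := exists_quotEquiv (B := Cu) (R := R) (T := Tp)
    (V := Additive (U ⧸ powers p U)) f hf hker
  let Rt := R.map (QuotientAddGroup.mk' Tp)
  have he' : ∀ (x : U), e ⟨((Additive.ofMul (x : ℚbˣ) : Cu) : Cu ⧸ Tp), _, x.2, rfl⟩ =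
        Additive.ofMul (QuotientGroup.mk x) := fun x => he ⟨Additive.ofMul x.1, x.2⟩
  refine Nat.card_congr
    ⟨fun φ => ⟨(Rt.subtype.comp e.symm.toAddMonoidHom).comp φ.1, fun m => (e.symm _).2,
        fun h hh m x hx => ?_⟩,
      fun φ => ⟨e.toAddMonoidHom.comp (φ.1.codRestrict Rt φ.2.1), fun h hh m x y hx hy => ?_⟩,
      fun φ => Subtype.ext (AddMonoidHom.ext fun m => e.apply_symm_apply _),
      fun φ => Subtype.ext (AddMonoidHom.ext fun m =>
        congrArg Subtype.val (e.symm_apply_apply (φ.1.codRestrict Rt φ.2.1 m)))⟩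
  · obtain ⟨z, hz, hz'⟩ := (e.symm (φ.1 m)).2
    have hxz : (x : Cu ⧸ Tp) = (z : Cu ⧸ Tp) := hx.symm.trans hz'.symm
    rw [mk_smul_eq hT hh hxz]
    have h1 : φ.1 m = Additive.ofMul (QuotientGroup.mk (⟨z.toMul, hz⟩ : U)) := by
      rw [← he' ⟨z.toMul, hz⟩, ← e.apply_symm_apply (φ.1 m)]
      exact congrArg e (Subtype.ext hz'.symm)
    have h2 := φ.2 h hh m _ ⟨h • z.toMul, hst h hh z hz⟩ h1 rfl
    show ((e.symm (φ.1 (h • m))) : Cu ⧸ Tp) = _
    rw [h2, ← he', e.symm_apply_apply]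
    rfl
  · have h1 : φ.1.codRestrict Rt φ.2.1 m =
        ⟨((Additive.ofMul (x : ℚbˣ) : Cu) : Cu ⧸ Tp), _, x.2, rfl⟩ :=
      e.injective (hx.trans (he' x).symm)
    have h2 := φ.2.2 h hh m _ (congrArg Subtype.val h1)
    show e (φ.1.codRestrict Rt φ.2.1 (h • m)) = _
    rw [← he' y]
    refine congrArg e (Subtype.ext (h2.trans ?_))
    show (((h • Additive.ofMul (x : ℚbˣ) : Cu)) : Cu ⧸ Tp) =
      ((Additive.ofMul (y : ℚbˣ) : Cu) : Cu ⧸ Tp)
    rw [hy]
    rfl

/-- Units away from `T` modulo `p`-th powers as a module. -/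
theorem card_sUnits_hom_gen (hN : (LT T).IsOpen N) (M : Type) [AddCommGroup M]
    [DistribMulAction GQ M] [Finite M] (hA : CoprimeAct p H N M)
    (hμ : ∀ h ∈ N, ∀ μ : ℚbˣ, μ ^ p = 1 → h • μ = μ) :
    Nat.card {φ : M →+ Additive (sUnits T N ⧸ powers p (sUnits T N)) //
      ∀ h ∈ H, ∀ (m : M) (x y : sUnits T N), φ m = Additive.ofMul (QuotientGroup.mk x) →
        (y : ℚbˣ) = h • (x : ℚbˣ) → φ (h • m) = Additive.ofMul (QuotientGroup.mk y)} *
        Nat.card {φ : M →+ ZMod p // ∀ h ∈ H, ∀ m, φ (h • m) = φ m} =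
      Nat.card {φ : M →+ Cu // ∀ h ∈ H, ∀ m, φ (h • m) = h • φ m} *
        ∏ v ∈ placesOf T, ∏ᶠ w : PlacesAbove v H,
          Nat.card {φ : M →+ ZMod p //
            ∀ h ∈ H, (Quotient.out w : GQ) * h * (Quotient.out w : GQ)⁻¹ ∈ decomp v →
              ∀ m, φ (h • m) = φ m} := by
  obtain ⟨L, hL, hLN⟩ := hN
  haveI : (show Subgroup GQ from L).FiniteIndex := (LT T).finiteIndex L hL
  haveI hNfi : N.FiniteIndex := Subgroup.finiteIndex_of_le (H := (show Subgroup GQ from L)) hLN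
  haveI : H.FiniteIndex := Subgroup.finiteIndex_of_le hA.le
  set F : IntermediateField ℚ ℚb := IntermediateField.fixedField N
  have hfix : F.fixingSubgroup = N :=
    fixingSubgroup_fixedField_open (T := T) (H := N) ⟨L, hL, hLN⟩
  haveI : FiniteDimensional ℚ F := by
    obtain ⟨FL, hFL, e, -⟩ := hL
    haveI := hFL.1
    have hsub : F ≤ FL := by
      intro x hx
      rw [← InfiniteGalois.fixedField_fixingSubgroup FL, IntermediateField.mem_fixedField_iff]
      exact fun g hg => (IntermediateField.mem_fixedField_iff N x).mp hx g (hLN (e ▸ hg))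
    exact Module.Finite.of_injective (IntermediateField.inclusion hsub).toLinearMap
      (IntermediateField.inclusion hsub).injective
  haveI : NumberField F := NumberField.mk
  have hfin : ∀ v, Finite (PlacesAbove v H) := fun v =>
    Finite.of_surjective (fun x : GQ ⧸ H => DoubleCoset.mk (decomp v) H x.out) fun y => by
      induction y using Quotient.inductionOn' with
      | _ g =>
        refine ⟨(g : GQ ⧸ H), ?_⟩
        obtain ⟨s, hs⟩ := QuotientGroup.mk_out_eq_mul H g
        exact (DoubleCoset.eq _ _ _ _).mpr ⟨1, one_mem _, (s : GQ)⁻¹, inv_mem s.2, by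
          rw [hs]; group⟩
  have h1 := cQ_sUnits_split (T := T) ⟨L, hL, hLN⟩ hA
  have h2 := cQ_units_log hfix hA hμ
  rw [card_homPowers_gen M (sUnits T N) (stable_sUnitsR hA.le hA.normal), h1, mul_right_comm, h2,
    mul_assoc]
  congr 1
  rw [cQ_permModule hA hfin, cQ_permModule hA hfin, Finset.prod_singleton, Finset.prod_map,
    placesOf, Finset.prod_insertNone]
  rfl

/-- Maps from the trivial module. -/
theorem exists_trivModHomEquiv {V : Type} [AddCommGroup V] (hV : ∀ v : V, p • v = 0) :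
    ∃ e : (TrivMod p →+ V) ≃ V, ∀ φ, e φ = φ (show TrivMod p from (1 : ZMod p)) := by
  refine ⟨⟨fun φ => φ (show TrivMod p from (1 : ZMod p)),
    fun v => ZMod.lift p ⟨zmultiplesHom V v, by
      show ((p : ℤ) • v) = 0
      rw [natCast_zsmul, hV]⟩, fun φ => AddMonoidHom.ext fun m => ?_, fun v => ?_⟩, fun φ => rfl⟩
  · obtain ⟨n, rfl⟩ := ZMod.intCast_surjective (show ZMod p from m)
    refine (ZMod.lift_coe p _ n).trans ?_
    show n • φ _ = _
    rw [← map_zsmul]
    exact congrArg φ (show n • (1 : ZMod p) = (n : ZMod p) by rw [zsmul_eq_mul, mul_one])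
  · show ZMod.lift p _ (1 : ZMod p) = v
    rw [← Int.cast_one, ZMod.lift_coe]
    exact one_zsmul v

/-- The index of the `p`-th powers among the units away from `T`. -/
theorem card_sUnits_mod_gen (hH : (LT T).IsOpen H)
    (hμ : ∀ h ∈ H, ∀ μ : ℚbˣ, μ ^ p = 1 → h • μ = μ) :
    Nat.card (sUnits T H ⧸ powers p (sUnits T H)) =
      p ^ ∑ v ∈ placesOf T, Nat.card (PlacesAbove v H) := by
  obtain ⟨L, hL, hLH⟩ := hH
  haveI : (show Subgroup GQ from L).FiniteIndex := (LT T).finiteIndex L hL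
  haveI : H.FiniteIndex := Subgroup.finiteIndex_of_le (H := (show Subgroup GQ from L)) hLH
  haveI : NeZero p := ⟨hpf.out.ne_zero⟩
  haveI : Finite (TrivMod p) := inferInstanceAs (Finite (ZMod p))
  have hkill : ∀ m : TrivMod p, p • m = 0 := fun m => by
    show p • (show ZMod p from m) = 0
    rw [nsmul_eq_mul, ZMod.natCast_self, zero_mul]
  have hA : CoprimeAct p H H (TrivMod p) :=
    ⟨le_rfl, by rw [Subgroup.subgroupOf_self]; infer_instance,
      by rw [Subgroup.subgroupOf_self]; infer_instance,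
      by rw [Subgroup.subgroupOf_self, Subgroup.index_top]; exact fun h =>
        hpf.out.one_lt.ne' (Nat.dvd_one.mp h), hkill, fun _ _ _ => rfl⟩
  have hU : ∀ v : Additive (sUnits T H ⧸ powers p (sUnits T H)), p • v = 0 := fun v => by
    obtain ⟨x, hx⟩ := QuotientGroup.mk_surjective v.toMul
    rw [← ofMul_toMul v, ← hx, ← ofMul_pow, ← QuotientGroup.mk_pow]
    exact congrArg Additive.ofMul ((QuotientGroup.eq_one_iff _).mpr ⟨x, rfl⟩)
  have key := card_sUnits_hom_gen (T := T) ⟨L, hL, hLH⟩ (TrivMod p) hA hμ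
  obtain ⟨eU, -⟩ := exists_trivModHomEquiv (p := p)
    (V := Additive (sUnits T H ⧸ powers p (sUnits T H))) fun v => hU v
  obtain ⟨eZ, -⟩ := exists_trivModHomEquiv (p := p) (V := ZMod p) fun v => by
    rw [nsmul_eq_mul, ZMod.natCast_self, zero_mul]
  have hA1 : Nat.card {φ : TrivMod p →+ Additive (sUnits T H ⧸ powers p (sUnits T H)) //
      ∀ h ∈ H, ∀ (m : TrivMod p) (x y : sUnits T H), φ m = Additive.ofMul (QuotientGroup.mk x) →
        (y : ℚbˣ) = h • (x : ℚbˣ) → φ (h • m) = Additive.ofMul (QuotientGroup.mk y)} =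
      Nat.card (sUnits T H ⧸ powers p (sUnits T H)) := by
    rw [Nat.card_congr (Equiv.subtypeUnivEquiv fun φ h hh m x y hx hy => ?_), Nat.card_congr eU]
    · exact Nat.card_congr Additive.toMul
    · rw [trivMod_smul, hx, show y = x from Subtype.ext (hy.trans (x.2.1 h hh))]
  have hB : Nat.card {φ : TrivMod p →+ Cu // ∀ h ∈ H, ∀ m, φ (h • m) = h • φ m} = p := by
    have hroot : ∀ (φ : TrivMod p →+ Cu) m, (φ m).toMul ^ p = 1 := fun φ m => by
      rw [← toMul_nsmul, ← map_nsmul, hkill, map_zero]; rfl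
    rw [Nat.card_congr (Equiv.subtypeUnivEquiv
      (p := fun φ : TrivMod p →+ Cu => ∀ h ∈ H, ∀ m, φ (h • m) = h • φ m) fun φ h hh m => by
        rw [trivMod_smul]; exact Additive.toMul.injective (hμ h hh _ (hroot φ m)).symm)]
    let K : AddSubgroup Cu := (nsmulAddMonoidHom p).ker
    obtain ⟨eK, -⟩ := exists_trivModHomEquiv (p := p) (V := K) fun v => Subtype.ext v.2
    rw [Nat.card_congr (⟨fun φ => φ.codRestrict K fun m =>
          show p • φ m = 0 by rw [← map_nsmul, hkill, map_zero],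
        fun ψ => K.subtype.comp ψ, fun _ => rfl, fun _ => rfl⟩ :
        (TrivMod p →+ Cu) ≃ (TrivMod p →+ K)), Nat.card_congr eK]
    obtain ⟨ζ, hζ⟩ := HasEnoughRootsOfUnity.exists_primitiveRoot ℚb p
    refine Eq.trans (Nat.card_congr ⟨fun x => (⟨(x : Cu).toMul, ?_⟩ : rootsOfUnity p ℚb),
      fun z => ⟨Additive.ofMul (z : ℚbˣ), ?_⟩, fun _ => rfl, fun _ => rfl⟩) hζ.card_rootsOfUnity
    · rw [mem_rootsOfUnity, ← toMul_nsmul, show p • (x : Cu) = 0 from x.2]; rfl
    · show p • Additive.ofMul (z : ℚbˣ) = 0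
      rw [← ofMul_pow, (mem_rootsOfUnity p _).mp z.2]; rfl
  have hC : Nat.card {φ : TrivMod p →+ ZMod p // ∀ h ∈ H, ∀ m, φ (h • m) = φ m} = p := by
    rw [Nat.card_congr (Equiv.subtypeUnivEquiv fun φ h hh m => by rw [trivMod_smul]),
      Nat.card_congr eZ, Nat.card_zmod]
  rw [hA1, hB, hC, mul_comm] at key
  rw [Nat.eq_of_mul_eq_mul_left hpf.out.pos key, ← Finset.prod_pow_eq_pow_sum]
  refine Finset.prod_congr rfl fun v _ => ?_
  haveI : Finite (PlacesAbove v H) :=
    Finite.of_surjective (fun x : GQ ⧸ H => DoubleCoset.mk (decomp v) H x.out) fun y => by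
      induction y using Quotient.inductionOn' with
      | _ g =>
        refine ⟨(g : GQ ⧸ H), ?_⟩
        obtain ⟨s, hs⟩ := QuotientGroup.mk_out_eq_mul H g
        exact (DoubleCoset.eq _ _ _ _).mpr ⟨1, one_mem _, (s : GQ)⁻¹, inv_mem s.2, by
          rw [hs]; group⟩
  letI := Fintype.ofFinite (PlacesAbove v H)
  rw [finprod_eq_prod_of_fintype, Finset.prod_congr rfl (g := fun _ => p) (fun w _ => ?_),
    Finset.prod_const, Finset.card_univ, Nat.card_eq_fintype_card]
  rw [Nat.card_congr (Equiv.subtypeUnivEquiv fun φ h hh _ m => by rw [trivMod_smul]),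
    Nat.card_congr eZ, Nat.card_zmod]

end Fermat.Agent.GD
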