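import Fermat.Agent.GD.Global.SUnits.Ord
import Fermat.Agent.GD.Local.Hensel

/-!
# Units and their logarithms at the archimedean places
-/

set_option autoImplicit false
set_option linter.style.haveILetI false
set_option linter.unusedSectionVars false

noncomputable section

namespace Fermat.Agent.GD

open Fermat.Agent.Galois NumberField
open scoped Pointwise

local notation "ℚb" => AlgebraicClosure ℚ
local notation "Cu" => Additive (AlgebraicClosure ℚ)ˣ

/-- Real functions on the Galois group. -/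
def LogFun : Type := GQ → ℝ

instance : AddCommGroup LogFun := inferInstanceAs (AddCommGroup (GQ → ℝ))

instance : DistribMulAction GQ LogFun where
  smul σ f := fun g => f (g * σ)
  one_smul f := funext fun g => congrArg f (mul_one g)
  mul_smul σ τ f := funext fun g => congrArg f (mul_assoc g σ τ).symm
  smul_zero _ := rfl
  smul_add _ _ _ := rfl

/-- The logarithms of the archimedean absolute values of the conjugates. -/
def ellHom : Cu →+ LogFun where
  toFun x g := Real.log ‖complexEmbedding (g ((x.toMul : ℚbˣ) : ℚb))‖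
  map_zero' := funext fun g => by
    show Real.log ‖complexEmbedding (g ((1 : ℚbˣ) : ℚb))‖ = 0
    rw [Units.val_one, map_one, map_one, norm_one, Real.log_one]
  map_add' x y := funext fun g => by
    show Real.log ‖complexEmbedding (g ((x.toMul * y.toMul : ℚbˣ) : ℚb))‖ = _ + _
    rw [Units.val_mul, map_mul, map_mul, norm_mul, Real.log_mul]
    · exact norm_ne_zero_iff.mpr ((map_ne_zero _).mpr ((map_ne_zero g).mpr (Units.ne_zero _)))
    · exact norm_ne_zero_iff.mpr ((map_ne_zero _).mpr ((map_ne_zero g).mpr (Units.ne_zero _)))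

theorem ellHom_apply (x : Cu) (g : GQ) :
    ellHom x g = Real.log ‖complexEmbedding (g ((x.toMul : ℚbˣ) : ℚb))‖ := rfl

theorem ellHom_smul (h : GQ) (x : Cu) : ellHom (h • x) = h • ellHom x := rfl

theorem logFun_eq_zero_of_nsmul {k : ℕ} (hk : k ≠ 0) {f : LogFun} (h : k • f = 0) : f = 0 :=
  funext fun g => by
    have h1 : k • f g = 0 := congrFun h g
    rw [nsmul_eq_mul] at h1
    exact (mul_eq_zero.mp h1).resolve_left (by exact_mod_cast hk)

theorem mem_decomp_none {d : GQ} (hd : d ∈ decomp none) : d = 1 ∨ d = complexConjugation := by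
  obtain ⟨i, rfl⟩ := Subgroup.mem_zpowers_iff.mp (show d ∈ Subgroup.zpowers complexConjugation from hd)
  have h2 : complexConjugation ^ (2 : ℤ) = 1 := by
    rw [zpow_two]; exact complexConjugation_mul_self
  rcases Int.even_or_odd' i with ⟨k, rfl | rfl⟩
  · exact Or.inl (by rw [zpow_mul, h2, one_zpow])
  · exact Or.inr (by rw [zpow_add, zpow_mul, h2, one_zpow, one_mul, zpow_one])

variable {F : IntermediateField ℚ ℚb} [NumberField F] {N : Subgroup GQ}

/-- The embedding given by an element of the Galois group. -/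
def embOf (F : IntermediateField ℚ ℚb) (g : GQ) : F →+* ℂ :=
  (complexEmbedding.toRingHom.comp (g : ℚb ≃ₐ[ℚ] ℚb).toAlgHom.toRingHom).comp F.val.toRingHom

theorem embOf_apply (g : GQ) (x : F) : embOf F g x = complexEmbedding (g (x : ℚb)) := rfl

theorem embOf_eq_iff (hfix : F.fixingSubgroup = N) {g g' : GQ} :
    embOf F g = embOf F g' ↔ g⁻¹ * g' ∈ N := by
  rw [← hfix, IntermediateField.mem_fixingSubgroup_iff]
  constructor
  · intro h x hx
    have h1 : g x = g' x := complexEmbedding.toRingHom.injective (RingHom.congr_fun h ⟨x, hx⟩)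
    show g⁻¹ (g' x) = x
    rw [← h1]
    exact g.symm_apply_apply x
  · intro h
    ext x
    rw [embOf_apply, embOf_apply]
    congr 1
    conv_lhs => rw [← h x x.2]
    exact g.apply_symm_apply _

/-- The archimedean places of the field are the double cosets. -/
theorem exists_placeEquiv (hfix : F.fixingSubgroup = N) :
    ∃ e : PlacesAbove none N ≃ InfinitePlace F,
      ∀ g, e (DoubleCoset.mk (decomp none) N g) = InfinitePlace.mk (embOf F g) := by
  have hconj : ∀ g, embOf F (complexConjugation * g) = ComplexEmbedding.conjugate (embOf F g) := by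
    intro g
    ext x
    rw [embOf_apply, ComplexEmbedding.conjugate_coe_eq, embOf_apply]
    exact complexEmbedding_complexConjugation _
  have hwd : ∀ g g', DoubleCoset.mk (decomp none) N g = DoubleCoset.mk (decomp none) N g' →
      InfinitePlace.mk (embOf F g) = InfinitePlace.mk (embOf F g') := by
    intro g g' h
    obtain ⟨d, hd, n, hn, rfl⟩ := (DoubleCoset.eq _ _ _ _).mp h
    have h1 : embOf F (d * g * n) = embOf F (d * g) :=
      ((embOf_eq_iff hfix).mpr (by rw [inv_mul_cancel_left]; exact hn)).symm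
    rw [h1]
    rcases mem_decomp_none hd with rfl | rfl
    · rw [one_mul]
    · rw [hconj, InfinitePlace.mk_conjugate_eq]
  let f : PlacesAbove none N → InfinitePlace F := fun w => InfinitePlace.mk (embOf F (Quotient.out w))
  have hf : ∀ g, f (DoubleCoset.mk (decomp none) N g) = InfinitePlace.mk (embOf F g) := fun g =>
    hwd _ _ (DoubleCoset.out_eq' _ _ _)
  refine ⟨Equiv.ofBijective f ⟨fun w w' h => ?_, fun v => ?_⟩, hf⟩
  · rw [← DoubleCoset.out_eq' _ _ w, ← DoubleCoset.out_eq' _ _ w']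
    rcases InfinitePlace.mk_eq_iff.mp h with h1 | h1
    · exact (DoubleCoset.eq _ _ _ _).mpr ⟨1, one_mem _, _, (embOf_eq_iff hfix).mp h1, by group⟩
    · rw [← hconj] at h1
      exact (DoubleCoset.eq _ _ _ _).mpr
        ⟨complexConjugation, Subgroup.mem_zpowers _, _, (embOf_eq_iff hfix).mp h1, by group⟩
  · -- every embedding comes from the Galois group
    have hidx : N.index = Module.finrank ℚ F := by
      rw [IntermediateField.finrank_eq_fixingSubgroup_index, hfix]
    haveI : N.FiniteIndex := ⟨by rw [hidx]; exact Module.finrank_pos.ne'⟩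
    letI := Fintype.ofFinite (GQ ⧸ N)
    let Φ : GQ ⧸ N → (F →+* ℂ) := fun x => embOf F x.out
    have hΦ : Function.Injective Φ := fun x y h => by
      rw [← QuotientGroup.out_eq' x, ← QuotientGroup.out_eq' y]
      exact QuotientGroup.eq.mpr ((embOf_eq_iff hfix).mp h)
    have hcard : Fintype.card (GQ ⧸ N) = Fintype.card (F →+* ℂ) := by
      rw [← Nat.card_eq_fintype_card, ← Subgroup.index_eq_card, hidx, Embeddings.card]
    obtain ⟨x, hx⟩ := ((Fintype.bijective_iff_injective_and_card Φ).mpr ⟨hΦ, hcard⟩).2 v.embedding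
    exact ⟨DoubleCoset.mk (decomp none) N x.out, (hf _).trans
      ((congrArg InfinitePlace.mk hx).trans (InfinitePlace.mk_embedding v))⟩

/-- Units of the field as units of `ℚ̄`. -/
def unitsToQbar (F : IntermediateField ℚ ℚb) : (𝓞 F)ˣ →* ℚbˣ :=
  Units.map (((F.val.toRingHom).comp (algebraMap (𝓞 F) F)).toMonoidHom)

theorem coe_unitsToQbar (u : (𝓞 F)ˣ) : ((unitsToQbar F u : ℚbˣ) : ℚb) = (((u : 𝓞 F) : F) : ℚb) := rfl

theorem unitsToQbar_injective : Function.Injective (unitsToQbar F) := fun u v h => by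
  have h1 : (((u : 𝓞 F) : F) : ℚb) = (((v : 𝓞 F) : F) : ℚb) := congrArg Units.val h
  exact Units.ext (RingOfIntegers.ext (Subtype.ext h1))

theorem mem_of_forall_smul_placeAt {y : ℚb}
    (h : ∀ (q : Nat.Primes) (g : GQ), (placeAt q).valuation (g y) ≤ 1) (V : ValuationSubring ℚb) :
    y ∈ V := by
  by_cases hex : ∃ q : Nat.Primes, V.LiesOverPrime q
  · obtain ⟨q, hq⟩ := hex
    obtain ⟨σ, hσ⟩ := exists_smul_eq_of_liesOverPrime q.2 (placeAt_liesOverPrime q) hq
    rw [hσ, ValuationSubring.mem_pointwise_smul_iff_inv_smul_mem]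
    exact ((placeAt q).valuation_le_one_iff _).mp (h q σ⁻¹)
  · push Not at hex
    have hnat : ∀ n : ℕ, n ≠ 0 → V.valuation (n : ℚb) = 1 := by
      intro n
      induction n using Nat.recOnMul with
      | zero => exact fun h => absurd rfl h
      | one => exact fun _ => by rw [Nat.cast_one, map_one]
      | prime ℓ hℓ =>
        exact fun _ => le_antisymm ((V.valuation_le_one_iff _).mpr (natCast_mem _ _))
          (not_lt.mp fun h => hex ⟨ℓ, hℓ⟩ (V.mem_nonunits_iff.mpr h))
      | mul a b ha hb =>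
        exact fun hab => by
          rw [Nat.cast_mul, map_mul, ha (left_ne_zero_of_mul hab), hb (right_ne_zero_of_mul hab), one_mul]
    have hrat : ∀ r : ℚ, algebraMap ℚ ℚb r ∈ V := fun r => by
      refine (V.valuation_le_one_iff _).mp ?_
      have hnum : V.valuation (r.num : ℚb) ≤ 1 := (V.valuation_le_one_iff _).mpr (intCast_mem _ _)
      rw [eq_ratCast, Rat.cast_def, map_div₀, hnat r.den r.den_nz, div_one]
      exact hnum
    have hint : IsIntegral ℚ y := Algebra.IsIntegral.isIntegral y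
    exact root_mem (A := V) (f := (minpoly ℚ y).map (algebraMap ℚ ℚb))
      ((minpoly.monic hint).map _) (fun i => by rw [Polynomial.coeff_map]; exact hrat _)
      (by rw [Polynomial.IsRoot.def, Polynomial.eval_map]; exact minpoly.aeval ℚ y)

theorem mem_sUnitsR_empty_iff (hfix : F.fixingSubgroup = N) {x : Cu} :
    x ∈ sUnitsR ∅ N ↔ ∃ u : (𝓞 F)ˣ, Additive.ofMul (unitsToQbar F u) = x := by
  constructor
  · intro hx
    have hF : ∀ y : ℚbˣ, (∀ h ∈ N, h • y = y) → (y : ℚb) ∈ F := fun y hy => by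
      rw [← InfiniteGalois.fixedField_fixingSubgroup F, IntermediateField.mem_fixedField_iff, hfix]
      exact fun g hg => congrArg Units.val (hy g hg)
    have hv : ∀ y ∈ sUnitsR ∅ N, IsIntegral ℤ (((y : Cu).toMul : ℚbˣ) : ℚb) := fun y hy =>
      isIntegral_of_forall_valuationSubring (mem_of_forall_smul_placeAt fun q g =>
        ((ValuationSubring.mem_unitGroup_iff _ _).mp (hy.2 q (Finset.notMem_empty q) g)).le)
    have hint : ∀ {z : ℚb} (hz : z ∈ F), IsIntegral ℤ z → IsIntegral ℤ (⟨z, hz⟩ : F) := fun hz h =>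
      (isIntegral_algHom_iff (IsScalarTower.toAlgHom ℤ F ℚb) (algebraMap F ℚb).injective).1 h
    have hxinv : -x ∈ sUnitsR ∅ N := (sUnitsR ∅ N).neg_mem hx
    let a : 𝓞 F := ⟨⟨_, hF _ hx.1⟩, hint _ (hv x hx)⟩
    let b : 𝓞 F := ⟨⟨_, hF _ hxinv.1⟩, hint _ (hv _ hxinv)⟩
    have hab : a * b = 1 := RingOfIntegers.ext (Subtype.ext (by
      show ((x.toMul : ℚbˣ) : ℚb) * (((-x : Cu).toMul : ℚbˣ) : ℚb) = 1
      rw [← Units.val_mul, ← toMul_add, add_neg_cancel]; rfl))
    exact ⟨⟨a, b, hab, by rw [mul_comm]; exact hab⟩, Additive.toMul.injective (Units.ext rfl)⟩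
  · rintro ⟨u, rfl⟩
    refine ⟨fun h hh => Units.ext ?_, fun q _ g => ?_⟩
    · exact (IntermediateField.mem_fixingSubgroup_iff F h).mp (hfix ▸ hh) _ ((u : 𝓞 F) : F).2
    · rw [ValuationSubring.mem_unitGroup_iff]
      show (placeAt q).valuation (g (((u : 𝓞 F) : F) : ℚb)) = 1
      refine le_antisymm (valuation_smul_int_le_one g _) ?_
      have h1 := congrArg (fun a : 𝓞 F => (placeAt q).valuation (g ((a : F) : ℚb))) u.mul_inv
      push_cast at h1
      rw [map_mul, map_mul, map_one, map_one] at h1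
      rw [← h1]
      exact mul_le_of_le_one_right' (valuation_smul_int_le_one g _)

variable {H : Subgroup GQ} {p : ℕ} [hpf : Fact p.Prime]
variable {M : Type} [AddCommGroup M] [DistribMulAction GQ M] [Finite M]

theorem ellHom_eq_zero_iff (hfix : F.fixingSubgroup = N) (u : (𝓞 F)ˣ) :
    ellHom (Additive.ofMul (unitsToQbar F u)) = 0 ↔ u ∈ NumberField.Units.torsion F := by
  obtain ⟨e, he⟩ := exists_placeEquiv hfix
  rw [NumberField.Units.mem_torsion]
  constructor
  · intro h w
    obtain ⟨c, rfl⟩ := e.surjective w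
    have h0 : Real.log ((e c) ((u : 𝓞 F) : F)) = 0 := by
      rw [← DoubleCoset.out_eq' _ _ c, he]
      exact congrFun h c.out
    rcases Real.log_eq_zero.mp h0 with h1 | h1 | h1
    · exact absurd h1 (NumberField.Units.pos_at_place u _).ne'
    · exact h1
    · linarith [NumberField.Units.pos_at_place u (e c)]
  · intro h
    funext g
    show Real.log ‖embOf F g ((u : 𝓞 F) : F)‖ = 0
    rw [← InfinitePlace.apply, ← he, h]
    exact Real.log_one

/-- A Minkowski unit for every place, equivariantly. -/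
theorem exists_unit_family (hfix : F.fixingSubgroup = N) (hle : N ≤ H)
    (hn : (N.subgroupOf H).Normal) :
    ∃ u : GQ → sUnitsR ∅ N, (∀ d ∈ decomp none, ∀ g, ∀ n ∈ N, u (d * g * n) = u g) ∧
      (∀ h ∈ H, ∀ g, (u (g * h⁻¹) : Cu) = h • (u g : Cu)) ∧
      ∀ g g', DoubleCoset.mk (decomp none) N g ≠ DoubleCoset.mk (decomp none) N g' →
        ellHom (u g) g' < 0 := by
  classical
  obtain ⟨e, he⟩ := exists_placeEquiv hfix
  choose u₀ hu₀ using fun w : InfinitePlace F => NumberField.Units.dirichletUnitTheorem.exists_unit F w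
  let x₀ : GQ → sUnitsR ∅ N := fun g =>
    ⟨Additive.ofMul (unitsToQbar F (u₀ (e (DoubleCoset.mk (decomp none) N g)))),
      (mem_sUnitsR_empty_iff hfix).mpr ⟨_, rfl⟩⟩
  have hx₀ : ∀ g g', DoubleCoset.mk (decomp none) N g ≠ DoubleCoset.mk (decomp none) N g' →
      ellHom (x₀ g) g' < 0 := fun g g' hne => by
    have h1 := hu₀ (e (DoubleCoset.mk (decomp none) N g)) (e (DoubleCoset.mk (decomp none) N g'))
      fun h => hne (e.injective h).symm
    rw [he g'] at h1
    exact h1
  haveI := hn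
  haveI : (N.subgroupOf H).FiniteIndex := by
    haveI : N.FiniteIndex := ⟨by
      rw [← hfix, ← IntermediateField.finrank_eq_fixingSubgroup_index]
      exact Module.finrank_pos.ne'⟩
    infer_instance
  letI := Fintype.ofFinite (H ⧸ N.subgroupOf H)
  have hst := stable_sUnitsR (T := ∅) hle hn
  let term : GQ → H → sUnitsR ∅ N := fun g a =>
    ⟨(a : GQ) • (x₀ (g * a) : Cu), hst _ a.2 _ (x₀ (g * a)).2⟩
  have hterm : ∀ g (a b : H), (a : H ⧸ N.subgroupOf H) = b → term g a = term g b := by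
    intro g a b hab
    have hn' : ((a⁻¹ * b : H) : GQ) ∈ N := Subgroup.mem_subgroupOf.mp (QuotientGroup.eq.mp hab)
    refine Subtype.ext ?_
    show (a : GQ) • (x₀ (g * a) : Cu) = (b : GQ) • (x₀ (g * b) : Cu)
    have hx : x₀ (g * b) = x₀ (g * a) := Subtype.ext (by
      show Additive.ofMul (unitsToQbar F (u₀ (e _))) = Additive.ofMul (unitsToQbar F (u₀ (e _)))
      rw [show DoubleCoset.mk (decomp none) N (g * (b : GQ)) = DoubleCoset.mk (decomp none) N (g * a) from
        (DoubleCoset.eq _ _ _ _).mpr ⟨1, one_mem _, _, inv_mem hn', by push_cast; group⟩])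
    rw [hx, show (b : GQ) = (a : GQ) * ((a⁻¹ * b : H) : GQ) by push_cast; group, mul_smul,
      fixed_sUnitsR _ hn' _ (x₀ (g * a)).2]
  refine ⟨fun g => ∑ c : H ⧸ N.subgroupOf H, term g c.out, fun d hd g n hn' => ?_, fun h hh g => ?_,
    fun g g' hne => ?_⟩
  · refine Finset.sum_congr rfl fun c _ => Subtype.ext ?_
    show (c.out : GQ) • (x₀ (d * g * n * c.out) : Cu) = (c.out : GQ) • (x₀ (g * c.out) : Cu)
    congr 1
    show Additive.ofMul (unitsToQbar F (u₀ (e _))) = Additive.ofMul (unitsToQbar F (u₀ (e _)))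
    rw [show DoubleCoset.mk (decomp none) N (d * g * n * c.out) =
      DoubleCoset.mk (decomp none) N (g * c.out) from (DoubleCoset.eq _ _ _ _).mpr
        ⟨d⁻¹, inv_mem hd, _, inv_mem (conj_mem_of_normal hle hn c.out.2 hn'), by group⟩]
  · let hH : H := ⟨h, hh⟩
    show ((∑ c : H ⧸ N.subgroupOf H, term (g * h⁻¹) c.out : sUnitsR ∅ N) : Cu) =
      h • ((∑ c : H ⧸ N.subgroupOf H, term g c.out : sUnitsR ∅ N) : Cu)
    rw [← Equiv.sum_comp (MulAction.toPerm hH) fun c : H ⧸ N.subgroupOf H => term (g * h⁻¹) c.out]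
    push_cast
    rw [Finset.smul_sum]
    refine Finset.sum_congr rfl fun c _ => ?_
    rw [hterm (g * h⁻¹) _ (hH * c.out) (by
      rw [QuotientGroup.out_eq']
      conv_lhs => rw [← QuotientGroup.out_eq' c]
      rfl)]
    show ((h * (c.out : GQ))) • (x₀ (g * h⁻¹ * (h * c.out)) : Cu) = _
    rw [show g * h⁻¹ * (h * (c.out : GQ)) = g * c.out by group, mul_smul]
  · let ev : LogFun →+ ℝ := AddMonoidHom.mk' (fun f => f g') fun _ _ => rfl
    show (ev.comp (ellHom.comp (sUnitsR ∅ N).subtype)) _ < 0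
    rw [map_sum]
    refine Finset.sum_neg (fun c _ => ?_) ⟨QuotientGroup.mk 1, Finset.mem_univ _⟩
    show ellHom ((c.out : GQ) • (x₀ (g * c.out) : Cu)) g' < 0
    rw [ellHom_smul]
    refine hx₀ _ _ fun h1 => hne ?_
    obtain ⟨d, hd, n, hn', e'⟩ := (DoubleCoset.eq _ _ _ _).mp h1
    exact (DoubleCoset.eq _ _ _ _).mpr ⟨d, hd, (c.out : GQ) * n * (c.out : GQ)⁻¹,
      by simpa using! conj_mem_of_normal hle hn (inv_mem c.out.2) hn', by
        rw [← mul_inv_cancel_right g' (c.out : GQ), e']; group⟩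

/-- Maps into the torsion are maps into the roots of unity. -/
theorem cQ_torsion_roots {R : AddSubgroup Cu} (hM : ∀ m : M, p • m = 0)
    (htor : ∀ x : Cu, p • x = 0 → x ∈ R) :
    cQ M H (R ⊓ (nsmulAddMonoidHom p).ker) ⊥ =
      Nat.card {φ : M →+ Cu // ∀ h ∈ H, ∀ m, φ (h • m) = h • φ m} := by
  set π := QuotientAddGroup.mk' (⊥ : AddSubgroup Cu)
  have hinj : Function.Injective π := (injective_iff_map_eq_zero π).mpr fun x hx =>
    AddSubgroup.mem_bot.mp ((QuotientAddGroup.eq_zero_iff x).mp hx)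
  let e : Cu ≃+ Cu ⧸ (⊥ : AddSubgroup Cu) :=
    AddEquiv.ofBijective π ⟨hinj, QuotientAddGroup.mk'_surjective _⟩
  refine Nat.card_congr
    ⟨fun φ => ⟨e.symm.toAddMonoidHom.comp φ.1, fun h hh m => e.injective ?_⟩,
      fun φ => ⟨π.comp φ.1, fun m => ⟨φ.1 m, ?_, rfl⟩, fun h hh m x hx => ?_⟩,
      fun φ => Subtype.ext (AddMonoidHom.ext fun m => e.apply_symm_apply _),
      fun φ => Subtype.ext (AddMonoidHom.ext fun m => e.symm_apply_apply _)⟩
  · show e (e.symm (φ.1 (h • m))) = π (h • e.symm (φ.1 m))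
    rw [e.apply_symm_apply]
    exact φ.2.2 h hh m _ (e.apply_symm_apply (φ.1 m)).symm
  · have h0 : p • φ.1 m = 0 := by rw [← map_nsmul, hM, map_zero]
    exact ⟨htor _ h0, h0⟩
  · show π (φ.1 (h • m)) = π (h • x)
    rw [φ.2 h hh]
    exact congrArg (fun y => π (h • y)) (hinj hx)

set_option maxHeartbeats 2000000 in
/-- The count of the units: roots of unity and the archimedean places up to a trivial line. -/
theorem cQ_units_log (hfix : F.fixingSubgroup = N) (hA : CoprimeAct p H N M)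
    (hμ : ∀ h ∈ N, ∀ μ : ℚbˣ, μ ^ p = 1 → h • μ = μ) :
    cQ M H (sUnitsR ∅ N) ((sUnitsR ∅ N).map (nsmulAddMonoidHom p)) *
        Nat.card {φ : M →+ ZMod p // ∀ h ∈ H, ∀ m, φ (h • m) = φ m} =
      Nat.card {φ : M →+ Cu // ∀ h ∈ H, ∀ m, φ (h • m) = h • φ m} *
        cQ M H (permModule {none} N) ((permModule {none} N).map (nsmulAddMonoidHom p)) := by
  classical
  have hp0 : p ≠ 0 := hpf.out.ne_zero
  haveI : NeZero p := ⟨hp0⟩
  set R := sUnitsR ∅ N
  have hR := stable_sUnitsR (T := ∅) hA.le hA.normal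
  let ψ : Additive (𝓞 F)ˣ →+ Cu := MonoidHom.toAdditive (unitsToQbar F)
  have hψR : ∀ v, ψ v ∈ R := fun v => (mem_sUnitsR_empty_iff hfix).mpr ⟨v.toMul, rfl⟩
  set ℓ : R →+ LogFun := ellHom.comp R.subtype
  set L := ℓ.range
  set K : AddSubgroup Cu := R ⊓ ellHom.ker
  have hbotst : ∀ {B : Type} [AddCommGroup B] [DistribMulAction GQ B],
      StableUnder H (⊥ : AddSubgroup B) := fun h _ x hx => by
    rw [AddSubgroup.mem_bot.mp hx, smul_zero]; exact zero_mem _
  have htfL : ∀ x : LogFun, p • x = 0 → x = 0 := fun x hx => logFun_eq_zero_of_nsmul hp0 hx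
  -- the torsion
  have htor : ∀ x : Cu, p • x = 0 → x ∈ R := by
    intro x hx
    have h1 : (x.toMul : ℚbˣ) ^ p = 1 := by rw [← toMul_nsmul, hx]; rfl
    refine ⟨fun h hh => hμ h hh _ h1, fun q _ g => ?_⟩
    rw [ValuationSubring.mem_unitGroup_iff]
    have h2 := congrArg (fun z : ℚbˣ => (placeAt q).valuation ((g • z : ℚbˣ) : ℚb)) h1
    simp only [smul_pow', smul_one, Units.val_pow_eq_pow_val, map_pow, Units.val_one, map_one] at h2
    exact (pow_eq_one_iff.mp h2).resolve_right hp0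
  have hKfin : Finite K := by
    refine Finite.of_surjective (α := NumberField.Units.torsion F)
      (fun u => (⟨ψ (Additive.ofMul (u : (𝓞 F)ˣ)), hψR _,
        (ellHom_eq_zero_iff hfix _).mpr u.2⟩ : K)) fun x => ?_
    obtain ⟨u, hu⟩ := (mem_sUnitsR_empty_iff hfix).mp x.2.1
    exact ⟨⟨u, (ellHom_eq_zero_iff hfix u).mp (hu ▸ x.2.2)⟩, Subtype.ext hu⟩
  have hKst : StableUnder H K := fun h hh x hx => ⟨hR h hh x hx.1, show ellHom (h • x) = 0 by
    rw [ellHom_smul, show ellHom x = 0 from hx.2, smul_zero]⟩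
  have hfixR : ∀ s ∈ N, ∀ x ∈ R, s • x = x := fixed_sUnitsR
  have e1 := cQ_hom_split hA ℓ rfl (K := K)
    (fun x => ⟨fun h => ⟨x.2, h⟩, fun h => h.2⟩) inf_le_left hR (fun h hh x => rfl) hfixR htfL
  -- the roots of unity
  have e2 : cQ M H K (K.map (nsmulAddMonoidHom p)) =
      Nat.card {φ : M →+ Cu // ∀ h ∈ H, ∀ m, φ (h • m) = h • φ m} := by
    haveI := hKfin
    haveI : Finite (K ⊓ (nsmulAddMonoidHom p).ker : AddSubgroup Cu) :=
      Finite.of_injective (AddSubgroup.inclusion inf_le_left) (AddSubgroup.inclusion_injective _)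
    have hidx : (⊥ : AddSubgroup Cu).relIndex K ≠ 0 := by
      rw [AddSubgroup.relIndex_bot_left]; exact Nat.card_pos.ne'
    have key := cQ_torsion_index hA _ rfl hidx bot_le hKst hbotst
      (fun s hs x hx => hfixR s hs x hx.1) inferInstance
    rw [bot_inf_eq, AddSubgroup.map_bot, cQ_self ⊥ hbotst, mul_one, one_mul] at key
    rw [key]
    refine cQ_torsion_roots hA.killed fun x hx => ⟨htor x hx, ?_⟩
    exact htfL _ (by rw [← map_nsmul, hx, map_zero])
  -- the lattice of logarithms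
  obtain ⟨e, he⟩ := exists_placeEquiv hfix
  obtain ⟨u, huinv, hueq, huneg⟩ := exists_unit_family hfix hA.le hA.normal
  letI : Fintype (PlacesAbove none N) := Fintype.ofEquiv _ e.symm
  let rep : (PlacesAbove none N) → GQ := fun c => Quotient.out c
  have hmk : ∀ c : (PlacesAbove none N), DoubleCoset.mk (decomp none) N (rep c) = c := fun c => DoubleCoset.out_eq' _ _ c
  let Λ : ((PlacesAbove none N) → ℤ) →ₗ[ℤ] LogFun := (AddMonoidHom.mk'
    (fun f => ∑ c, f c • ellHom (u (rep c))) fun f f' => by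
      simp only [Pi.add_apply, add_smul, Finset.sum_add_distrib]).toIntLinearMap
  have hΛapp : ∀ f g, Λ f g = ∑ c, (f c : ℝ) * ellHom (u (rep c)) g := fun f g => by
    let ev : LogFun →+ ℝ := AddMonoidHom.mk' (fun z => z g) fun _ _ => rfl
    show ev (∑ c, f c • ellHom (u (rep c))) = _
    rw [map_sum]
    exact Finset.sum_congr rfl fun c _ => by
      rw [map_zsmul, zsmul_eq_mul]
      rfl
  -- sign of a relation
  let m : (PlacesAbove none N) → ℝ := fun c => ((e c).mult : ℝ)
  have hm : ∀ c, 0 < m c := fun c => Nat.cast_pos.mpr InfinitePlace.mult_pos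
  have hsum : ∀ x : sUnitsR ∅ N, ∑ c, m c * ellHom x (rep c) = 0 := fun x => by
    obtain ⟨v, hv⟩ := (mem_sUnitsR_empty_iff hfix).mp x.2
    rw [← hv, ← NumberField.Units.sum_mult_mul_log v, ← e.sum_comp]
    refine Finset.sum_congr rfl fun c _ => ?_
    show _ * Real.log ‖embOf F (rep c) ((v : 𝓞 F) : F)‖ = _
    rw [← InfinitePlace.apply, ← he, hmk]
  have hsign : ∀ f, Λ f = 0 → ∀ c₀, f c₀ ≤ 0 → ∀ c, f c ≤ 0 := by
    intro f hf c₀ hc₀ c
    by_contra hc
    push Not at hc
    let Q := Finset.univ.filter fun d : (PlacesAbove none N) => f d ≤ 0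
    have hy : ∑ d ∈ Q, m d * Λ f (rep d) = 0 := by
      simp only [hf]; exact Finset.sum_eq_zero fun d _ => mul_zero _
    simp only [hΛapp, Finset.mul_sum] at hy
    rw [Finset.sum_comm] at hy
    have hle : ∀ i, ∑ d ∈ Q, m d * ((f i : ℝ) * ellHom (u (rep i)) (rep d)) ≤ 0 := by
      intro i
      by_cases hi : f i ≤ 0
      · have h2 : ∑ d ∈ Q, m d * ((f i : ℝ) * ellHom (u (rep i)) (rep d)) =
            (f i : ℝ) * -(∑ d ∈ Finset.univ \ Q, m d * ellHom (u (rep i)) (rep d)) := by
          have h3 := hsum (u (rep i))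
          rw [← Finset.sum_sdiff (Finset.subset_univ Q)] at h3
          rw [show -(∑ d ∈ Finset.univ \ Q, m d * ellHom (u (rep i)) (rep d)) =
            ∑ d ∈ Q, m d * ellHom (u (rep i)) (rep d) by linarith, Finset.mul_sum]
          exact Finset.sum_congr rfl fun d _ => by ring
        rw [h2]
        refine mul_nonpos_of_nonpos_of_nonneg (by exact_mod_cast hi) (neg_nonneg.mpr ?_)
        refine Finset.sum_nonpos fun d hd => mul_nonpos_of_nonneg_of_nonpos (hm d).le (le_of_lt ?_)
        refine huneg _ _ fun h => ?_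
        rw [hmk, hmk] at h
        exact (Finset.mem_sdiff.mp hd).2 (Finset.mem_filter.mpr ⟨Finset.mem_univ _, h ▸ hi⟩)
      · refine Finset.sum_nonpos fun d hd => ?_
        have hneq : i ≠ d := fun h => hi (h ▸ (Finset.mem_filter.mp hd).2)
        exact mul_nonpos_of_nonneg_of_nonpos (hm d).le (mul_nonpos_of_nonneg_of_nonpos
          (by exact_mod_cast (not_le.mp hi).le)
          (huneg _ _ fun h => hneq (by rwa [hmk, hmk] at h)).le)
    have hlt : ∑ d ∈ Q, m d * ((f c : ℝ) * ellHom (u (rep c)) (rep d)) < 0 := by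
      refine Finset.sum_neg (fun d hd => ?_) ⟨c₀, Finset.mem_filter.mpr ⟨Finset.mem_univ _, hc₀⟩⟩
      have hneq : c ≠ d := fun h => absurd (Finset.mem_filter.mp hd).2 (not_le.mpr (h ▸ hc))
      exact mul_neg_of_pos_of_neg (hm d) (mul_neg_of_pos_of_neg (by exact_mod_cast hc)
        (huneg _ _ fun h => hneq (by rwa [hmk, hmk] at h)))
    have := Finset.sum_lt_sum (fun i _ => hle i) ⟨c, Finset.mem_univ c, hlt⟩
    rw [Finset.sum_const_zero] at this
    linarith
  let c₀ : (PlacesAbove none N) := DoubleCoset.mk (decomp none) N 1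
  have hval0 : ∀ f, Λ f = 0 → f c₀ = 0 → f = 0 := fun f hf h0 => funext fun c => by
    have h1 := hsign f hf c₀ h0.le c
    have h2 := hsign (-f) (by rw [map_neg, hf, neg_zero]) c₀ (by simp [h0]) c
    simp only [Pi.neg_apply] at h2
    simp only [Pi.zero_apply]
    omega
  -- ranks
  have hLeq : L = (ellHom.comp ψ).range := by
    ext x
    constructor
    · rintro ⟨y, rfl⟩
      obtain ⟨v, hv⟩ := (mem_sUnitsR_empty_iff hfix).mp y.2
      exact ⟨Additive.ofMul v, congrArg ellHom hv⟩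
    · rintro ⟨v, rfl⟩; exact ⟨⟨_, hψR v⟩, rfl⟩
  set Lz : Submodule ℤ LogFun := L.toIntSubmodule
  let θ : Additive ((𝓞 F)ˣ ⧸ NumberField.Units.torsion F) →+ LogFun := MonoidHom.toAdditiveLeft
    (QuotientGroup.lift (NumberField.Units.torsion F)
      (AddMonoidHom.toMultiplicativeRight (ellHom.comp ψ))
      fun v hv => congrArg Multiplicative.ofAdd ((ellHom_eq_zero_iff hfix v).mpr hv))
  have hθ : ∀ v : (𝓞 F)ˣ, θ (Additive.ofMul (QuotientGroup.mk v)) =
      ellHom (ψ (Additive.ofMul v)) := fun v => rfl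
  letI : AddCommGroup (Additive ((𝓞 F)ˣ ⧸ NumberField.Units.torsion F)) := Additive.addCommGroup
  letI : Module ℤ (Additive ((𝓞 F)ˣ ⧸ NumberField.Units.torsion F)) :=
    AddCommGroup.toIntModule (Additive ((𝓞 F)ˣ ⧸ NumberField.Units.torsion F))
  let θz : Additive ((𝓞 F)ˣ ⧸ NumberField.Units.torsion F) →ₗ[ℤ] LogFun :=
    { toFun := θ, map_add' := map_add θ, map_smul' := fun z x => map_zsmul θ z x }
  have hθrange : LinearMap.range θz = Lz := by
    ext x
    show (∃ y, θ y = x) ↔ x ∈ L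
    rw [hLeq]
    constructor
    · rintro ⟨y, rfl⟩
      obtain ⟨v, hv⟩ := QuotientGroup.mk_surjective y.toMul
      exact ⟨Additive.ofMul v, by rw [← ofMul_toMul y, ← hv, hθ]; rfl⟩
    · rintro ⟨v, rfl⟩; exact ⟨Additive.ofMul (QuotientGroup.mk v.toMul), hθ _⟩
  have hθinj : Function.Injective θ := (injective_iff_map_eq_zero θ).mpr fun y hy => by
    obtain ⟨v, hv⟩ := QuotientGroup.mk_surjective y.toMul
    rw [← ofMul_toMul y, ← hv, hθ] at hy
    rw [← ofMul_toMul y, ← hv]
    exact congrArg Additive.ofMul ((QuotientGroup.eq_one_iff v).mpr ((ellHom_eq_zero_iff hfix v).mp hy))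
  let eL : Additive ((𝓞 F)ˣ ⧸ NumberField.Units.torsion F) ≃ₗ[ℤ] Lz :=
    (LinearEquiv.ofInjective θz hθinj).trans (LinearEquiv.ofEq _ _ hθrange)
  haveI : Module.Finite ℤ Lz := Module.Finite.equiv eL
  haveI : Module.Free ℤ Lz := Module.Free.of_equiv eL
  have hrankL : Module.finrank ℤ Lz + 1 = Fintype.card (PlacesAbove none N) := by
    rw [← eL.finrank_eq, NumberField.Units.finrank_modTorsion]
    show Fintype.card (InfinitePlace F) - 1 + 1 = _
    rw [Nat.sub_add_cancel Fintype.card_pos, Fintype.card_congr e.symm]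
  have hΛL : ∀ f, Λ f ∈ Lz := fun f =>
    AddSubgroup.sum_mem L fun c _ => L.zsmul_mem ⟨u (rep c), rfl⟩ _
  let Λ' : ((PlacesAbove none N) → ℤ) →ₗ[ℤ] Lz := Λ.codRestrict Lz hΛL
  have hrn : Module.finrank ℤ (LinearMap.range Λ') + Module.finrank ℤ (LinearMap.ker Λ') =
      Fintype.card (PlacesAbove none N) := by
    rw [← Λ'.quotKerEquivRange.finrank_eq, Submodule.finrank_quotient_add_finrank,
      Module.finrank_pi]
  have hker1 : Module.finrank ℤ (LinearMap.ker Λ') ≤ 1 := by
    let ev : LinearMap.ker Λ' →ₗ[ℤ] ℤ := (LinearMap.proj c₀).comp (LinearMap.ker Λ').subtype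
    have hev : Function.Injective ev := (injective_iff_map_eq_zero ev).mpr fun f hf =>
      Subtype.ext (hval0 f.1 (congrArg Subtype.val (LinearMap.mem_ker.mp f.2)) hf)
    calc _ ≤ Module.finrank ℤ ℤ := LinearMap.finrank_le_finrank_of_injective hev
      _ = 1 := Module.finrank_self ℤ
  have hrle : Module.finrank ℤ (LinearMap.range Λ') ≤ Module.finrank ℤ Lz := Submodule.finrank_le _
  have hfinite : Finite (Lz ⧸ LinearMap.range Λ') :=
    Submodule.finiteQuotientOfFreeOfRankEq _ (by omega)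
  -- a generator of the relations
  have hker0 : ∃ f, Λ f = 0 ∧ f ≠ 0 := by
    have h1 : LinearMap.ker Λ' ≠ ⊥ := fun h => by
      rw [h, finrank_bot] at hrn
      omega
    obtain ⟨f, hf, hf0⟩ := Submodule.exists_mem_ne_zero_of_ne_bot h1
    exact ⟨f, congrArg Subtype.val (LinearMap.mem_ker.mp hf), hf0⟩
  obtain ⟨n₀, hn₀, hgen⟩ : ∃ n₀, Λ n₀ = 0 ∧ n₀ c₀ ≠ 0 ∧ ∀ f, Λ f = 0 → ∃ t : ℤ, f = t • n₀ := by
    let I : AddSubgroup ℤ := (LinearMap.ker Λ).toAddSubgroup.map
      (Pi.evalAddMonoidHom (fun _ : (PlacesAbove none N) => ℤ) c₀)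
    obtain ⟨a, ha⟩ := Int.subgroup_cyclic I
    obtain ⟨n₀, hn₀, hn₀a⟩ : a ∈ I := ha ▸ AddSubgroup.subset_closure rfl
    have hall : ∀ f, Λ f = 0 → ∃ t : ℤ, f = t • n₀ := fun f hf => by
      have hfI : f c₀ ∈ I := ⟨f, hf, rfl⟩
      rw [ha, AddSubgroup.mem_closure_singleton] at hfI
      obtain ⟨t, ht⟩ := hfI
      refine ⟨t, sub_eq_zero.mp (hval0 _ (by
        rw [map_sub, map_zsmul, hf, show Λ n₀ = 0 from hn₀, smul_zero, sub_zero]) ?_)⟩
      show f c₀ - t • n₀ c₀ = 0
      rw [show n₀ c₀ = a from hn₀a, ht, sub_self]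
    refine ⟨n₀, hn₀, fun h0 => ?_, hall⟩
    obtain ⟨f, hf, hf0⟩ := hker0
    obtain ⟨t, ht⟩ := hall f hf
    exact hf0 (ht.trans (by rw [hval0 n₀ hn₀ h0, smul_zero]))
  -- transfer to the permutation module
  set P := permModule {none} N
  let toS : P →+ ((PlacesAbove none N) → ℤ) := AddMonoidHom.mk' (fun f c => (f : PlaceFun) none (rep c)) fun _ _ => rfl
  have hrepP : ∀ (f : PlaceFun), f ∈ P → ∀ g, f none (rep (DoubleCoset.mk (decomp none) N g)) = f none g := by
    intro f hf g
    obtain ⟨d, k, hd, hk, e'⟩ := DoubleCoset.mk_out_eq_mul (decomp none) N g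
    show f none (Quotient.out (DoubleCoset.mk (decomp none) N g)) = _
    rw [e', hf.2 none d hd g k hk]
  have htoSinj : Function.Injective toS := fun f f' h => Subtype.ext (funext fun v => funext fun g => by
    by_cases hv : v ∈ ({none} : Finset Place)
    · obtain rfl := Finset.mem_singleton.mp hv
      rw [← hrepP f.1 f.2 g, ← hrepP f'.1 f'.2 g]
      exact congrFun h _
    · rw [f.2.1 v hv g, f'.2.1 v hv g])
  have htoS : ∀ a : (PlacesAbove none N) → ℤ, ∃ f : P, toS f = a := fun a => by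
    let f₀ : PlaceFun := fun v g => match v with
      | none => a (DoubleCoset.mk (decomp none) N g)
      | some _ => 0
    refine ⟨⟨f₀, fun v hv g => ?_, fun v d hd g k hk => ?_⟩, funext fun c => congrArg a (hmk c)⟩
    · rcases v with _ | q
      · exact absurd (Finset.mem_singleton_self none) hv
      · rfl
    · rcases v with _ | q
      · exact congrArg a ((DoubleCoset.eq _ _ _ _).mpr ⟨d⁻¹, inv_mem hd, k⁻¹, inv_mem hk, by group⟩)
      · rfl
  let ΛP : P →+ LogFun := Λ.toAddMonoidHom.comp toS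
  have hP := stable_permModule (s := {none}) hA.le hA.normal
  -- the action permutes the places
  have hperm : ∀ h ∈ H, ∃ σ : Equiv.Perm (PlacesAbove none N), ∀ c, DoubleCoset.mk (decomp none) N (rep c * h) = σ c := by
    intro h hh
    have hcong : ∀ h' ∈ H, ∀ g g', DoubleCoset.mk (decomp none) N g = DoubleCoset.mk (decomp none) N g' →
        DoubleCoset.mk (decomp none) N (g * h') = DoubleCoset.mk (decomp none) N (g' * h') := by
      intro h' hh' g g' hgg
      obtain ⟨d, hd, k, hk, rfl⟩ := (DoubleCoset.eq _ _ _ _).mp hgg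
      exact (DoubleCoset.eq _ _ _ _).mpr ⟨d, hd, _, conj_mem_of_normal hA.le hA.normal hh' hk, by group⟩
    refine ⟨⟨fun c => DoubleCoset.mk (decomp none) N (rep c * h),
      fun c => DoubleCoset.mk (decomp none) N (rep c * h⁻¹), fun c => ?_, fun c => ?_⟩, fun c => rfl⟩
    · show DoubleCoset.mk (decomp none) N (rep (DoubleCoset.mk (decomp none) N (rep c * h)) * h⁻¹) = c
      rw [hcong _ (inv_mem hh) _ (rep c * h) (hmk _), mul_inv_cancel_right, hmk]
    · show DoubleCoset.mk (decomp none) N (rep (DoubleCoset.mk (decomp none) N (rep c * h⁻¹)) * h) = c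
      rw [hcong _ hh _ (rep c * h⁻¹) (hmk _), inv_mul_cancel_right, hmk]
  have hueq' : ∀ g, u (rep (DoubleCoset.mk (decomp none) N g)) = u g := fun g => by
    obtain ⟨d, k, hd, hk, e'⟩ := DoubleCoset.mk_out_eq_mul (decomp none) N g
    show u (Quotient.out (DoubleCoset.mk (decomp none) N g)) = _
    rw [e', huinv d hd g k hk]
  have heqΛ : ∀ h (hh : h ∈ H) (x : P), ΛP ⟨h • (x : PlaceFun), hP h hh x x.2⟩ = h • ΛP x := by
    intro h hh x
    obtain ⟨σ, hσ⟩ := hperm h hh
    let act : LogFun →+ LogFun := DistribSMul.toAddMonoidHom LogFun h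
    show (∑ c, (x : PlaceFun) none (rep c * h) • ellHom (u (rep c))) =
      act (∑ c, (x : PlaceFun) none (rep c) • ellHom (u (rep c)))
    rw [map_sum, ← Equiv.sum_comp σ fun c => act ((x : PlaceFun) none (rep c) • ellHom (u (rep c)))]
    refine Finset.sum_congr rfl fun c _ => ?_
    rw [← hσ, hrepP _ x.2, map_zsmul, hueq']
    congr 1
    show ellHom (u (rep c)) = h • ellHom (u (rep c * h) : Cu)
    rw [← ellHom_smul, ← hueq h hh, mul_inv_cancel_right]
  let nP : P := (htoS n₀).choose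
  have hnP : toS nP = n₀ := (htoS n₀).choose_spec
  let K' : AddSubgroup PlaceFun := (AddSubgroup.zmultiples nP).map P.subtype
  have hK'P : K' ≤ P := by rintro _ ⟨x, -, rfl⟩; exact x.2
  have hkerΛ : ∀ x : P, ΛP x = 0 ↔ (x : PlaceFun) ∈ K' := fun x => by
    constructor
    · intro h
      obtain ⟨t, ht⟩ := hgen.2 _ h
      exact ⟨t • nP, AddSubgroup.zsmul_mem_zmultiples _ _,
        congrArg Subtype.val (htoSinj (a₁ := t • nP) (a₂ := x)
          ((map_zsmul toS t nP).trans ((congrArg (t • ·) hnP).trans ht.symm)))⟩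
    · rintro ⟨y, hy, hyx⟩
      obtain ⟨t, rfl⟩ := AddSubgroup.mem_zmultiples_iff.mp hy
      rw [← show t • nP = x from Subtype.ext hyx, map_zsmul,
        show ΛP nP = 0 from (congrArg Λ hnP).trans hn₀, smul_zero]
  have htfP : ∀ x : PlaceFun, p • x = 0 → x = 0 := fun x hx => placeFun_eq_zero_of_nsmul hp0 hx
  have e3 := cQ_hom_split hA ΛP rfl hkerΛ hK'P hP heqΛ fixed_permModule htfL
  -- the image has finite index in the lattice
  have hL'L : ΛP.range ≤ L := by rintro _ ⟨x, rfl⟩; exact hΛL _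
  have hidxL : ΛP.range.relIndex L ≠ 0 := by
    haveI : Finite (Lz ⧸ (LinearMap.range Λ').toAddSubgroup) := hfinite
    have hle : (LinearMap.range Λ').toAddSubgroup ≤ ΛP.range.addSubgroupOf L := by
      rintro _ ⟨a, rfl⟩
      obtain ⟨x, hx⟩ := htoS a
      exact AddSubgroup.mem_addSubgroupOf.mpr ⟨x, congrArg Λ hx⟩
    intro h0
    have h1 : (LinearMap.range Λ').toAddSubgroup.index ≠ 0 := by
      rw [AddSubgroup.index_eq_card]
      exact Nat.card_pos.ne'
    exact h1 (Nat.eq_zero_of_zero_dvd ((show (ΛP.range.addSubgroupOf L).index = 0 from h0) ▸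
      AddSubgroup.index_dvd_of_le hle))
  have hLst : StableUnder H L := by
    rintro h hh _ ⟨x, rfl⟩
    exact ⟨⟨h • (x : Cu), hR h hh x x.2⟩, rfl⟩
  have hfixL : ∀ s ∈ N, ∀ x ∈ L, s • x = x := by
    rintro s hs _ ⟨x, rfl⟩
    show s • ellHom (x : Cu) = ellHom (x : Cu)
    rw [← ellHom_smul, hfixR s hs x x.2]
  have hL'st : StableUnder H ΛP.range := by
    rintro h hh _ ⟨x, rfl⟩
    exact ⟨_, heqΛ h hh x⟩
  have hkerL : ∀ A : AddSubgroup LogFun, A ⊓ (nsmulAddMonoidHom p).ker = ⊥ := fun A =>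
    eq_bot_iff.mpr fun z hz => AddSubgroup.mem_bot.mpr (htfL z hz.2)
  have key := cQ_torsion_index hA _ rfl hidxL hL'L hLst hL'st hfixL (by rw [hkerL]; infer_instance)
  rw [hkerL, hkerL, cQ_self ⊥ hbotst, mul_one, mul_one] at key
  -- the trivial line
  have e4 : cQ M H K' (K'.map (nsmulAddMonoidHom p)) =
      Nat.card {φ : M →+ ZMod p // ∀ h ∈ H, ∀ m, φ (h • m) = φ m} := by
    have hK'st : StableUnder H K' := fun h hh x hx => (hkerΛ ⟨_, hP h hh x (hK'P hx)⟩).mp (by
      rw [heqΛ h hh ⟨x, hK'P hx⟩, (hkerΛ ⟨x, hK'P hx⟩).mpr hx, smul_zero])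
    have hK'pst : StableUnder H (K'.map (nsmulAddMonoidHom p)) := by
      rintro h hh _ ⟨x, hx, rfl⟩
      exact ⟨h • x, hK'st h hh x hx, smul_comm p h x⟩
    have hcoef : ∀ x : K', ∃ t : ℤ, (x : PlaceFun) = t • (nP : PlaceFun) := fun x => by
      obtain ⟨y, hy, hyx⟩ := x.2
      obtain ⟨t, rfl⟩ := AddSubgroup.mem_zmultiples_iff.mp hy
      exact ⟨t, hyx.symm⟩
    choose t ht using hcoef
    let evP : PlaceFun →+ ℤ := AddMonoidHom.mk' (fun f => f none (rep c₀)) fun _ _ => rfl
    have hnc : evP nP ≠ 0 := by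
      show (nP : PlaceFun) none (rep c₀) ≠ 0
      rw [show (nP : PlaceFun) none (rep c₀) = n₀ c₀ from congrFun hnP c₀]
      exact hgen.1
    have huniq : ∀ (x : K') (s : ℤ), (x : PlaceFun) = s • (nP : PlaceFun) → t x = s := fun x s hs => by
      have h1 := congrArg evP ((ht x).symm.trans hs)
      rw [map_zsmul, map_zsmul, smul_eq_mul, smul_eq_mul] at h1
      exact mul_right_cancel₀ hnc h1
    have hfixn : ∀ h ∈ H, h • (nP : PlaceFun) = (nP : PlaceFun) := by
      intro h hh
      have hmem : h • (nP : PlaceFun) ∈ K' :=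
        hK'st h hh _ ⟨nP, AddSubgroup.mem_zmultiples _, rfl⟩
      obtain ⟨s, hs⟩ : ∃ s : ℤ, h • (nP : PlaceFun) = s • (nP : PlaceFun) := ⟨_, ht ⟨_, hmem⟩⟩
      obtain ⟨σ, hσ⟩ := hperm h hh
      let tot : PlaceFun →+ ℤ := AddMonoidHom.mk' (fun f => ∑ c, f none (rep c))
        fun f f' => Finset.sum_add_distrib
      have h1 : tot (h • (nP : PlaceFun)) = tot nP := by
        show ∑ c, (nP : PlaceFun) none (rep c * h) = ∑ c, (nP : PlaceFun) none (rep c)
        rw [← Equiv.sum_comp σ fun c => (nP : PlaceFun) none (rep c)]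
        exact Finset.sum_congr rfl fun c _ => by rw [← hσ, hrepP _ nP.2]
      rw [hs, map_zsmul, smul_eq_mul] at h1
      have htot : tot nP ≠ 0 := by
        show ∑ c, (nP : PlaceFun) none (rep c) ≠ 0
        rw [show (fun c => (nP : PlaceFun) none (rep c)) = n₀ from hnP]
        rcases lt_or_gt_of_ne hgen.1 with hneg | hpos
        · exact (Finset.sum_neg (fun c _ => lt_of_le_of_ne (hsign n₀ hn₀ c₀ hneg.le c) fun h0 =>
            hgen.1 (le_antisymm hneg.le (by
              have := hsign (-n₀) (by rw [map_neg, hn₀, neg_zero]) c (by simp [h0]) c₀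
              simpa using this))) ⟨c₀, Finset.mem_univ _⟩).ne
        · refine (Finset.sum_pos (fun c _ => ?_) ⟨c₀, Finset.mem_univ _⟩).ne'
          by_contra hc
          exact absurd (hsign n₀ hn₀ c (not_lt.mp hc) c₀) (not_le.mpr hpos)
      rw [hs, mul_left_eq_self₀.mp h1 |>.resolve_right htot, one_zsmul]
    let f : K' →+ ZMod p := AddMonoidHom.mk' (fun x => (t x : ZMod p)) fun x y => by
      rw [huniq (x + y) (t x + t y) (by push_cast; rw [ht x, ht y, add_smul]), Int.cast_add]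
    refine cQ_eq_invariant hK'st hK'pst f (fun z => ?_) (fun x => ?_) (fun h hh x => ?_)
    · obtain ⟨s, rfl⟩ := ZMod.intCast_surjective z
      refine ⟨⟨s • (nP : PlaceFun), s • nP, AddSubgroup.zsmul_mem_zmultiples _ _, rfl⟩, ?_⟩
      exact congrArg (fun a : ℤ => (a : ZMod p)) (huniq _ s rfl)
    · show (t x : ZMod p) = 0 ↔ _
      rw [ZMod.intCast_zmod_eq_zero_iff_dvd]
      constructor
      · rintro ⟨s, hs⟩
        refine ⟨s • (nP : PlaceFun), ⟨s • nP, AddSubgroup.zsmul_mem_zmultiples _ _, rfl⟩, ?_⟩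
        show p • (s • (nP : PlaceFun)) = x
        rw [ht x, hs, mul_smul, natCast_zsmul]
      · rintro ⟨y, hy, hyx⟩
        refine ⟨t ⟨y, hy⟩, huniq x _ ?_⟩
        rw [← hyx, mul_smul, natCast_zsmul, ← ht ⟨y, hy⟩]
        rfl
    · refine congrArg (fun a : ℤ => (a : ZMod p)) (huniq _ _ ?_)
      show h • (x : PlaceFun) = t x • (nP : PlaceFun)
      conv_lhs => rw [ht x]
      rw [← DistribSMul.toAddMonoidHom_apply, map_zsmul, DistribSMul.toAddMonoidHom_apply, hfixn h hh]
  rw [e1, e2, e3, e4, key]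
  ring

end Fermat.Agent.GD
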