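import Fermat.Agent.GD.Global.SUnits.Perm
import Fermat.Agent.GD.Global.SUnits.Big

/-!
# Units away from `T` and their orders
-/

set_option autoImplicit false
set_option linter.style.haveILetI false
set_option linter.unusedSectionVars false

noncomputable section

namespace Fermat.Agent.GD

open Fermat.Agent.Galois
open scoped Pointwise NumberField nonZeroDivisors

local notation "ℚb" => AlgebraicClosure ℚ
local notation "Cu" => Additive (AlgebraicClosure ℚ)ˣ

variable {T : Finset Nat.Primes} {p : ℕ} [hpf : Fact p.Prime] {H N : Subgroup GQ}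

/-- Units away from `T`, written additively. -/
abbrev sUnitsR (T : Finset Nat.Primes) (N : Subgroup GQ) : AddSubgroup Cu :=
  (sUnits T N).toAddSubgroup

theorem conj_mem_of_normal (hle : N ≤ H) (hn : (N.subgroupOf H).Normal) {h n : GQ} (hh : h ∈ H)
    (hnN : n ∈ N) : h⁻¹ * n * h ∈ N := by
  simpa using! Subgroup.mem_subgroupOf.mp
    (hn.conj_mem ⟨n, hle hnN⟩ (Subgroup.mem_subgroupOf.mpr hnN) ⟨h⁻¹, inv_mem hh⟩)

theorem stable_sUnitsR (hle : N ≤ H) (hn : (N.subgroupOf H).Normal) :
    StableUnder H (sUnitsR T N) := fun h hh x hx =>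
  ⟨fun s hs => by
    show s • (h • x.toMul) = h • x.toMul
    have h1 : (h⁻¹ * s * h) • x.toMul = x.toMul := hx.1 _ (conj_mem_of_normal hle hn hh hs)
    rw [mul_smul, mul_smul, inv_smul_eq_iff] at h1
    exact h1,
  fun q hq g => by
    show g • (h • x.toMul) ∈ (placeAt q).unitGroup
    rw [← mul_smul]
    exact hx.2 q hq (g * h)⟩

theorem fixed_sUnitsR : ∀ s ∈ N, ∀ x ∈ sUnitsR T N, s • x = x := fun s hs x hx =>
  Additive.toMul.injective (hx.1 s hs)

/-- The values of the fixed units are rational powers of the primes with a common denominator. -/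
theorem exists_common_exp (hN : (LT T).IsOpen N) :
    ∃ n : ℕ, n ≠ 0 ∧ ∀ (q : Nat.Primes) (g : GQ) (x : ℚbˣ), (∀ s ∈ N, s • x = x) →
      ∃ k : ℤ, (placeAt q).valuation ((g • x : ℚbˣ) : ℚb) ^ n =
        (placeAt q).valuation ((q : ℕ) : ℚb) ^ k := by
  obtain ⟨L, hL, hLN⟩ := hN
  obtain ⟨FL, hFL, hLFL, hLn⟩ := hL
  let L' : Subgroup GQ := L
  haveI : L'.FiniteIndex := (LT T).finiteIndex L ⟨FL, hFL, hLFL, hLn⟩
  refine ⟨L'.index.factorial, Nat.factorial_ne_zero _, fun q g x hx => ?_⟩
  set Lq : Subgroup (LD (some q)).G := L'.subgroupOf (decomp (some q))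
  have hLq : (LD (some q)).IsOpen Lq :=
    ⟨_, ⟨L', ⟨FL, hFL.1, hLFL, hLn⟩, rfl⟩, le_rfl⟩
  haveI := finiteDimensional_fieldOf hLq
  have hy : ((g • x : ℚbˣ) : ℚb) ∈ fieldOf Lq := fun s hs => by
    have hs' : toGQ s ∈ L' := Subgroup.mem_subgroupOf.mp hs
    have h1 : (g⁻¹ * toGQ s * g) • x = x := hx _ (hLN (by
      have := hLn.conj_mem _ hs' g⁻¹
      simpa using! this))
    rw [mul_smul, mul_smul, inv_smul_eq_iff] at h1
    exact congrArg Units.val h1
  obtain ⟨k, hk⟩ := exists_val_pow_eq q.2 (placeAt_liesOverPrime q) (fieldOf Lq) hy (Units.ne_zero _)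
  rw [finrank_fieldOf hLq] at hk
  have hle : Lq.index ≤ L'.index := by
    rw [show Lq.index = L'.relIndex (decomp (some q)) from rfl, ← L'.relIndex_top_right]
    exact Subgroup.relIndex_le_of_le_right le_top (by
      rw [L'.relIndex_top_right]; exact Subgroup.FiniteIndex.index_ne_zero)
  haveI := finiteIndex_of_isOpen hLq
  obtain ⟨r, hr⟩ := Nat.dvd_factorial (Nat.pos_of_ne_zero
    (Subgroup.FiniteIndex.index_ne_zero (H := Lq))) hle
  refine ⟨k * r, ?_⟩
  rw [hr, pow_mul, hk, zpow_mul, zpow_natCast]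

/-- An element with a single pole among the finite places. -/
theorem exists_pi {F : IntermediateField ℚ ℚb} [NumberField F] (hfix : F.fixingSubgroup = N)
    (q : Nat.Primes) (c : GQ) :
    ∃ x : ℚbˣ, (∀ h ∈ N, h • x = x) ∧
      (∀ g, DoubleCoset.mk (decomp (some q)) N g = DoubleCoset.mk (decomp (some q)) N c →
        (placeAt q).valuation ((g • x : ℚbˣ) : ℚb) < 1) ∧
      ∀ q' : Nat.Primes, ∀ g, (q' ≠ q ∨
          DoubleCoset.mk (decomp (some q)) N g ≠ DoubleCoset.mk (decomp (some q)) N c) →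
        (placeAt q').valuation ((g • x : ℚbˣ) : ℚb) = 1 := by
  have hA := placeAt_liesOverPrime q
  have hAc := liesOverPrime_smul hA c⁻¹
  have hqP : ((q : ℕ) : 𝓞 F) ∈ primeUnder F (c⁻¹ • placeAt q) :=
    (natCast_mem_primeUnder q.2 hAc q).mpr dvd_rfl
  have hPmax : (primeUnder F (c⁻¹ • placeAt q)).IsMaximal := isMaximal_primeUnder q.2 hAc
  have hP0 : primeUnder F (c⁻¹ • placeAt q) ≠ ⊥ := fun h => by
    rw [h, Ideal.mem_bot] at hqP
    exact q.2.ne_zero (by exact_mod_cast hqP)
  set P := primeUnder F (c⁻¹ • placeAt q) with hPdef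
  set k := Nat.card (ClassGroup (𝓞 F))
  have hk : k ≠ 0 := Nat.card_pos.ne'
  have hpr : (P ^ k).IsPrincipal := by
    have h1 : ClassGroup.mk0 ((⟨P, mem_nonZeroDivisors_of_ne_zero hP0⟩ : (Ideal (𝓞 F))⁰) ^ k) = 1 := by
      rw [map_pow]; exact pow_card_eq_one'
    exact (ClassGroup.mk0_eq_one_iff _).mp h1
  obtain ⟨π, hπ⟩ := hpr.principal
  have hπ' : P ^ k = Ideal.span {π} := hπ
  have hπP : π ∈ P := Ideal.pow_le_self hk (hπ' ▸ Ideal.mem_span_singleton_self π)
  have hπ0 : π ≠ 0 := by
    intro h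
    rw [h, Ideal.span_singleton_eq_bot.mpr rfl] at hπ'
    exact pow_ne_zero k hP0 hπ'
  have hπb : ((π : F) : ℚb) ≠ 0 := by exact_mod_cast hπ0
  have hHfix : ∀ h ∈ N, ∀ x ∈ F, h x = x := fun h hh x hx =>
    (IntermediateField.mem_fixingSubgroup_iff F h).mp (hfix ▸ hh) x hx
  refine ⟨Units.mk0 _ hπb, fun h hh => Units.ext (hHfix h hh _ (π : F).2), fun g hg => ?_,
    fun q' g hne => ?_⟩
  · obtain ⟨d, hd, h, hh, rfl⟩ := (DoubleCoset.eq _ _ c g).mp hg.symm
    show (placeAt q).valuation ((d * c * h) ((π : F) : ℚb)) < 1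
    rw [AlgEquiv.mul_apply, AlgEquiv.mul_apply, hHfix h hh _ (π : F).2,
      Galois.valuation_apply_eq (σ := d) hd]
    exact (valuation_smul_lt_one_iff _ _ _).mpr (mem_primeUnder.mp hπP)
  · show (placeAt q').valuation (g ((π : F) : ℚb)) = 1
    refine le_antisymm (valuation_smul_int_le_one g π) ?_
    have hAg := liesOverPrime_smul (placeAt_liesOverPrime q') g⁻¹
    have hne' : ¬ P ≤ primeUnder F (g⁻¹ • placeAt q') := by
      intro hP'
      have heq := hPmax.eq_of_le (isMaximal_primeUnder (F := F) q'.2 hAg).ne_top hP'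
      have h1 := hqP
      rw [heq, natCast_mem_primeUnder q'.2 hAg] at h1
      have hqq : q' = q := Subtype.ext ((Nat.prime_dvd_prime_iff_eq q'.2 q.2).mp h1)
      subst hqq
      obtain ⟨h, hh, hA'⟩ := exists_smul_eq_of_primeUnder_eq q'.2 hAc hAg heq
      rw [hfix] at hh
      have hd : g * h * c⁻¹ ∈ decomp (some q') := by
        show g * h * c⁻¹ ∈ MulAction.stabilizer GQ (placeAt q')
        rw [MulAction.mem_stabilizer_iff, mul_smul, mul_smul, ← hA', smul_inv_smul]
      exact hne.resolve_left (not_not.mpr rfl) ((DoubleCoset.eq _ _ g c).mpr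
        ⟨(g * h * c⁻¹)⁻¹, inv_mem hd, h, hh, by group⟩)
    obtain ⟨z, hzP, hz⟩ := SetLike.not_le_iff_exists.mp hne'
    have hzk : z ^ k ∈ Ideal.span {π} := hπ' ▸ Ideal.pow_mem_pow hzP k
    obtain ⟨w, hw⟩ := Ideal.mem_span_singleton'.mp hzk
    have h1 := congrArg (fun a : 𝓞 F => (placeAt q').valuation (g ((a : F) : ℚb))) hw.symm
    push_cast at h1
    rw [map_pow, map_pow, map_mul, map_mul,
      (le_antisymm (valuation_smul_int_le_one g z)
        (not_lt.mp fun h => hz ((mem_primeUnder_smul g).mpr h))), one_pow] at h1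
    rw [h1]
    exact mul_le_of_le_one_left' (valuation_smul_int_le_one g w)

/-- A subgroup of a permutation module containing a positive multiple of it has finite index. -/
theorem relIndex_permModule_ne_zero {s : Finset Place} {L : AddSubgroup PlaceFun} {m : ℕ} (hm : m ≠ 0)
    (hN : N.FiniteIndex) (hsub : ∀ f ∈ permModule s N, m • f ∈ L) :
    L.relIndex (permModule s N) ≠ 0 := by
  classical
  haveI := hN
  haveI : NeZero m := ⟨hm⟩
  haveI : ∀ v : s, Finite (PlacesAbove v.1 N) := fun v =>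
    Finite.of_surjective (fun x : GQ ⧸ N => DoubleCoset.mk (decomp v.1) N x.out) fun y => by
      induction y using Quotient.inductionOn' with
      | _ g =>
        refine ⟨(g : GQ ⧸ N), ?_⟩
        obtain ⟨s, hs⟩ := QuotientGroup.mk_out_eq_mul N g
        exact (DoubleCoset.eq _ _ _ _).mpr ⟨1, one_mem _, (s : GQ)⁻¹, inv_mem s.2, by
          rw [hs]; group⟩
  set P := permModule s N
  let red : P →+ ((v : s) → PlacesAbove v.1 N → ZMod m) := AddMonoidHom.mk'
    (fun f v w => (((f : PlaceFun) v.1 (Quotient.out w) : ℤ) : ZMod m))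
    fun f f' => funext fun v => funext fun w => Int.cast_add _ _
  have hle : red.ker ≤ L.addSubgroupOf P := fun f hf => by
    have hd : ∀ v g, (m : ℤ) ∣ (f : PlaceFun) v g := by
      intro v g
      by_cases hv : v ∈ s
      · have h1 := congrFun (congrFun (hf : red f = 0) ⟨v, hv⟩) (DoubleCoset.mk (decomp v) N g)
        have h2 := (ZMod.intCast_zmod_eq_zero_iff_dvd _ _).mp h1
        obtain ⟨d, n, hd, hn, e⟩ := DoubleCoset.mk_out_eq_mul (decomp v) N g
        change (m : ℤ) ∣ (f : PlaceFun) v (Quotient.out (DoubleCoset.mk (decomp v) N g)) at h2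
        rwa [e, f.2.2 v d hd g n hn] at h2
      · rw [f.2.1 v hv g]; exact dvd_zero _
    let f₀ : PlaceFun := fun v g => (f : PlaceFun) v g / m
    have hf₀ : f₀ ∈ P := ⟨fun v hv g => (congrArg (fun z : ℤ => z / (m : ℤ)) (f.2.1 v hv g)).trans
      (Int.zero_ediv _), fun v d hd g n hn => congrArg (fun z : ℤ => z / (m : ℤ)) (f.2.2 v d hd g n hn)⟩
    rw [AddSubgroup.mem_addSubgroupOf]
    rw [show (f : PlaceFun) = m • f₀ from funext fun v => funext fun g =>
      ((placeFun_nsmul_apply m f₀ v g).trans (Int.mul_ediv_cancel' (hd v g))).symm]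
    exact hsub f₀ hf₀
  intro h0
  have h1 : red.ker.index ≠ 0 := by
    rw [AddSubgroup.index_ker]
    exact Nat.card_pos.ne'
  exact h1 (Nat.eq_zero_of_zero_dvd ((show (L.addSubgroupOf P).index = 0 from h0) ▸
    AddSubgroup.index_dvd_of_le hle))

variable {M : Type} [AddCommGroup M] [DistribMulAction GQ M] [Finite M]

set_option maxHeartbeats 1000000 in
/-- Splitting off the finite places. -/
theorem cQ_sUnits_split (hN : (LT T).IsOpen N) (hA : CoprimeAct p H N M) :
    cQ M H (sUnitsR T N) ((sUnitsR T N).map (nsmulAddMonoidHom p)) =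
      cQ M H (sUnitsR ∅ N) ((sUnitsR ∅ N).map (nsmulAddMonoidHom p)) *
        cQ M H (permModule (T.map Function.Embedding.some) N)
          ((permModule (T.map Function.Embedding.some) N).map (nsmulAddMonoidHom p)) := by
  classical
  obtain ⟨L, hL, hLN⟩ := hN
  haveI : (show Subgroup GQ from L).FiniteIndex := (LT T).finiteIndex L hL
  haveI hNfi : N.FiniteIndex := Subgroup.finiteIndex_of_le (H := (show Subgroup GQ from L)) hLN
  obtain ⟨n, hn0, hexp⟩ := exists_common_exp (T := T) ⟨L, hL, hLN⟩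
  set R := sUnitsR T N
  set s := T.map Function.Embedding.some
  set P := permModule s N
  have hval : ∀ (q : Nat.Primes) (g : GQ) (x : R), ∃ k : ℤ,
      (placeAt q).valuation ((g • (x : Cu).toMul : ℚbˣ) : ℚb) ^ n =
        (placeAt q).valuation ((q : ℕ) : ℚb) ^ k := fun q g x => hexp q g _ x.2.1
  choose k hk using hval
  have hu : ∀ (q : Nat.Primes) (g : GQ) (x : R) (z : ℤ),
      (placeAt q).valuation ((g • (x : Cu).toMul : ℚbˣ) : ℚb) ^ n =
        (placeAt q).valuation ((q : ℕ) : ℚb) ^ z → k q g x = z := fun q g x z hz =>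
    val_zpow_injective q.2 (placeAt_liesOverPrime q) ((hk q g x).symm.trans hz)
  have hv0 : ∀ q : Nat.Primes, (placeAt q).valuation ((q : ℕ) : ℚb) ≠ 0 := fun q =>
    natCast_val_ne_zero q.2
  let f : R →+ PlaceFun := AddMonoidHom.mk'
    (fun x v g => match v with
      | none => 0
      | some q => if q ∈ T then k q g x else 0)
    fun x y => funext fun v => funext fun g => by
      rcases v with _ | q
      · exact (add_zero (0 : ℤ)).symm
      · show (if q ∈ T then _ else (0 : ℤ)) = (if q ∈ T then _ else (0 : ℤ)) + (if q ∈ T then _ else (0 : ℤ))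
        by_cases hq : q ∈ T
        · rw [if_pos hq, if_pos hq, if_pos hq]
          refine hu q g _ _ ?_
          rw [zpow_add₀ (hv0 q), ← hk, ← hk, ← mul_pow, ← map_mul, ← Units.val_mul, ← smul_mul']
          rfl
        · rw [if_neg hq, if_neg hq, if_neg hq]; rfl
  have hf : ∀ (x : R) (q : Nat.Primes), q ∈ T → ∀ g, f x (some q) g = k q g x :=
    fun x q hq g => if_pos hq
  have hs : ∀ q, some q ∈ s ↔ q ∈ T := fun q => Finset.mem_map' Function.Embedding.some
  have hR := stable_sUnitsR (T := T) hA.le hA.normal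
  have hrP : f.range ≤ P := by
    rintro _ ⟨x, rfl⟩
    refine ⟨fun v hv g => ?_, fun v d hd g n' hn' => ?_⟩
    · rcases v with _ | q
      · rfl
      · exact if_neg fun hq => hv ((hs q).mpr hq)
    · rcases v with _ | q
      · rfl
      · by_cases hq : q ∈ T
        · rw [hf x q hq, hf x q hq]
          refine hu q _ x _ ?_
          rw [← hk q g x, mul_smul, mul_smul, x.2.1 n' hn']
          exact congrArg (· ^ n) (Galois.valuation_apply_eq (σ := d) hd _)
        · show (if q ∈ T then _ else (0 : ℤ)) = if q ∈ T then _ else (0 : ℤ)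
          rw [if_neg hq, if_neg hq]
  have hPtf : ∀ x : PlaceFun, p • x = 0 → x = 0 := fun x hx =>
    placeFun_eq_zero_of_nsmul hpf.out.ne_zero hx
  have heq : ∀ h (hh : h ∈ H) (x : R), f ⟨h • (x : Cu), hR h hh x x.2⟩ = h • f x := by
    intro h hh x
    funext v g
    rw [placeFun_smul_apply]
    rcases v with _ | q
    · rfl
    · by_cases hq : q ∈ T
      · rw [hf _ q hq, hf _ q hq]
        refine hu q g _ _ ?_
        rw [← hk q (g * h) x, mul_smul]
        rfl
      · show (if q ∈ T then _ else (0 : ℤ)) = if q ∈ T then _ else (0 : ℤ)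
        rw [if_neg hq, if_neg hq]
  have hKR : sUnitsR ∅ N ≤ R := fun x hx => ⟨hx.1, fun q _ g => hx.2 q (Finset.notMem_empty q) g⟩
  have hker : ∀ x : R, f x = 0 ↔ (x : Cu) ∈ sUnitsR ∅ N := by
    intro x
    constructor
    · intro h
      refine ⟨x.2.1, fun q _ g => ?_⟩
      by_cases hq : q ∈ T
      · have h1 : k q g x = 0 := by rw [← hf x q hq, h]; rfl
        have h2 := hk q g x
        rw [h1, zpow_zero] at h2
        exact (pow_eq_one_iff.mp h2).resolve_right hn0
      · exact x.2.2 q hq g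
    · intro h
      funext v g
      rcases v with _ | q
      · rfl
      · by_cases hq : q ∈ T
        · rw [hf x q hq]
          exact hu q g x 0 (by
            rw [(ValuationSubring.mem_unitGroup_iff _ _).mp (h.2 q (Finset.notMem_empty q) g), one_pow,
              zpow_zero])
        · exact if_neg hq
  rw [cQ_hom_split hA f rfl hker hKR hR heq fixed_sUnitsR hPtf]
  congr 1
  -- the image has finite index
  set F : IntermediateField ℚ ℚb := IntermediateField.fixedField N
  haveI : FiniteDimensional ℚ F := by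
    obtain ⟨FL, hFL, e, -⟩ := hL
    haveI := hFL.1
    have hsub : F ≤ FL := by
      intro x hx
      rw [← InfiniteGalois.fixedField_fixingSubgroup FL, IntermediateField.mem_fixedField_iff]
      exact fun g hg => (IntermediateField.mem_fixedField_iff N x).mp hx g (hLN (e ▸ hg))
    exact Module.Finite.of_injective (IntermediateField.inclusion hsub).toLinearMap
      (IntermediateField.inclusion hsub).injective
  haveI : NumberField F := NumberField.mk
  have hfix : F.fixingSubgroup = N :=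
    fixingSubgroup_fixedField_open (T := T) (H := N) ⟨L, hL, hLN⟩
  haveI hfinP : ∀ q : Nat.Primes, Finite (PlacesAbove (some q) N) := fun q =>
    Finite.of_surjective (fun x : GQ ⧸ N => DoubleCoset.mk (decomp (some q)) N x.out) fun y => by
      induction y using Quotient.inductionOn' with
      | _ g =>
        refine ⟨(g : GQ ⧸ N), ?_⟩
        obtain ⟨s, hs⟩ := QuotientGroup.mk_out_eq_mul N g
        exact (DoubleCoset.eq _ _ _ _).mpr ⟨1, one_mem _, (s : GQ)⁻¹, inv_mem s.2, by
          rw [hs]; group⟩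
  letI := fun q : Nat.Primes => Fintype.ofFinite (PlacesAbove (some q) N)
  have hpi : ∀ (q : T) (c : PlacesAbove (some q.1) N), ∃ (x : R) (a : ℤ), a ≠ 0 ∧
      ∀ (q' : Nat.Primes), q' ∈ T → ∀ g, f x (some q') g =
        if q' = q.1 ∧ DoubleCoset.mk (decomp (some q.1)) N g = c then a else 0 := by
    intro q c
    obtain ⟨x, hx1, hx2, hx3⟩ := exists_pi hfix q.1 (Quotient.out c)
    have hxR : Additive.ofMul x ∈ R := ⟨hx1, fun q' hq' g =>
      hx3 q' g (Or.inl fun e => hq' (e ▸ q.2))⟩
    refine ⟨⟨_, hxR⟩, k q.1 (Quotient.out c) ⟨_, hxR⟩, fun h0 => ?_, fun q' hq' g => ?_⟩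
    · have h2 := hk q.1 (Quotient.out c) ⟨_, hxR⟩
      rw [h0, zpow_zero] at h2
      exact (hx2 _ rfl).ne ((pow_eq_one_iff.mp h2).resolve_right hn0)
    · rw [hf _ q' hq']
      split_ifs with h
      · obtain ⟨h1, h2⟩ := h
        subst h1
        rw [← DoubleCoset.out_eq' _ _ c] at h2
        obtain ⟨d, hd, n', hn', e⟩ := (DoubleCoset.eq _ _ _ _).mp h2.symm
        refine hu _ g _ _ ?_
        rw [← hk q.1 (Quotient.out c) ⟨_, hxR⟩, e, mul_smul, mul_smul]
        show (placeAt q.1).valuation ((d • _ • (n' • x) : ℚbˣ) : ℚb) ^ n = _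
        rw [hx1 n' hn']
        exact congrArg (· ^ n) (Galois.valuation_apply_eq (σ := d) hd _)
      · refine hu q' g _ 0 ?_
        rw [zpow_zero]
        show (placeAt q').valuation ((g • x : ℚbˣ) : ℚb) ^ n = 1
        rw [hx3 q' g (by
          by_cases he : q' = q.1
          · exact Or.inr fun h2 => h ⟨he, by rw [h2]; exact DoubleCoset.out_eq' _ _ c⟩
          · exact Or.inl he), one_pow]
  choose x a ha hxf using hpi
  let m : ℕ := ∏ q : T, ∏ c : PlacesAbove (some q.1) N, (a q c).natAbs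
  have hm : m ≠ 0 := Finset.prod_ne_zero_iff.mpr fun q _ => Finset.prod_ne_zero_iff.mpr fun c _ =>
    Int.natAbs_ne_zero.mpr (ha q c)
  have hsub : ∀ g ∈ P, m • g ∈ f.range := by
    intro y hy
    have hdvd : ∀ q c, a q c ∣ (m : ℤ) := fun q c =>
      Int.natAbs_dvd.mp (Int.natCast_dvd_natCast.mpr
        ((Finset.dvd_prod_of_mem (fun c => (a q c).natAbs) (Finset.mem_univ c)).trans
          (Finset.dvd_prod_of_mem (fun q : T => ∏ c : PlacesAbove (some q.1) N, (a q c).natAbs) (Finset.mem_univ q))))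
    refine ⟨∑ q : T, ∑ c : PlacesAbove (some q.1) N, (y (some q.1) (Quotient.out c) * ((m : ℤ) / a q c)) • x q c, ?_⟩
    funext v g
    rw [placeFun_nsmul_apply]
    let ev : PlaceFun →+ ℤ := AddMonoidHom.mk' (fun z => z v g) fun _ _ => rfl
    show (ev.comp f) _ = _
    simp only [map_sum, map_zsmul, smul_eq_mul]
    show ∑ q : T, ∑ c : PlacesAbove (some q.1) N, _ * f (x q c) v g = _
    by_cases hv : v ∈ s
    · obtain ⟨q, hq, rfl⟩ := Finset.mem_map.mp hv
      rw [Finset.sum_eq_single (⟨q, hq⟩ : T) (fun q' _ hne => Finset.sum_eq_zero fun c _ => by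
          show _ * f (x q' c) (some q) g = 0
          rw [hxf q' c q hq g, if_neg fun h => hne (Subtype.ext h.1.symm), mul_zero])
          (fun h => absurd (Finset.mem_univ _) h),
        Finset.sum_eq_single (DoubleCoset.mk (decomp (some q)) N g) (fun c _ hne => by
          show _ * f (x ⟨q, hq⟩ c) (some q) g = 0
          rw [hxf ⟨q, hq⟩ c q hq g, if_neg fun h => hne h.2.symm, mul_zero])
          (fun h => absurd (Finset.mem_univ _) h)]
      show _ * f (x ⟨q, hq⟩ _) (some q) g = (m : ℤ) * y (some q) g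
      rw [hxf ⟨q, hq⟩ _ q hq g, if_pos ⟨rfl, rfl⟩]
      obtain ⟨d, n', hd, hn', e⟩ := DoubleCoset.mk_out_eq_mul (decomp (some q)) N g
      rw [e, hy.2 (some q) d hd g n' hn', mul_assoc, Int.ediv_mul_cancel (hdvd _ _), mul_comm]
    · rw [hy.1 v hv g, mul_zero]
      refine Finset.sum_eq_zero fun q _ => Finset.sum_eq_zero fun c _ => ?_
      rw [(hrP ⟨x q c, rfl⟩).1 v hv g, mul_zero]
  have hidx := relIndex_permModule_ne_zero (L := f.range) hm hNfi hsub
  have hst' : StableUnder H f.range := by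
    rintro h hh _ ⟨z, rfl⟩
    exact ⟨_, heq h hh z⟩
  have hP := stable_permModule (s := s) hA.le hA.normal
  have hker' : ∀ S : AddSubgroup PlaceFun, S ⊓ (nsmulAddMonoidHom p).ker = ⊥ := fun S =>
    eq_bot_iff.mpr fun z hz => AddSubgroup.mem_bot.mpr (hPtf z hz.2)
  have key := cQ_torsion_index hA _ rfl hidx hrP hP hst' fixed_permModule
    (by rw [hker']; infer_instance)
  rw [hker', hker', cQ_self ⊥ (fun h _ z hz => by
    rw [AddSubgroup.mem_bot.mp hz, smul_zero]; exact zero_mem _), mul_one, mul_one] at key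
  exact key.symm

end Fermat.Agent.GD
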