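import Fermat.Agent.GD.Setting
import Fermat.Agent.GD.Local.EquivHom

/-!
# Permutation modules on places and splittings of equivariant counts
-/

set_option autoImplicit false
set_option linter.style.haveILetI false
set_option linter.unusedSectionVars false

noncomputable section

namespace Fermat.Agent.GD

open Fermat.Agent.Galois (GQ)

variable {p : ℕ} [hpf : Fact p.Prime]

/-- A torsion-free quotient splits off in the count modulo `p`. -/
theorem cQ_hom_split {G : Type} [Group G] {H N : Subgroup G} {M : Type} [AddCommGroup M]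
    [DistribMulAction G M] {B B' : Type} [AddCommGroup B] [DistribMulAction G B] [AddCommGroup B']
    [DistribMulAction G B'] (hA : CoprimeAct p H N M) {R K : AddSubgroup B} {R' : AddSubgroup B'}
    (f : R →+ B') (hrange : f.range = R') (hker : ∀ x : R, f x = 0 ↔ (x : B) ∈ K) (hKR : K ≤ R)
    (hR : StableUnder H R) (heq : ∀ h (hh : h ∈ H) (x : R), f ⟨h • (x : B), hR h hh x x.2⟩ = h • f x)
    (hfix : ∀ s ∈ N, ∀ x ∈ R, s • x = x) (htf : ∀ x : B', p • x = 0 → x = 0) :
    cQ M H R (R.map (nsmulAddMonoidHom p)) =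
      cQ M H K (K.map (nsmulAddMonoidHom p)) * cQ M H R' (R'.map (nsmulAddMonoidHom p)) := by
  set π : B →+ B := nsmulAddMonoidHom p
  set π' : B' →+ B' := nsmulAddMonoidHom p
  have hK : StableUnder H K := fun h hh x hx => by
    have h0 := heq h hh ⟨x, hKR hx⟩
    rw [(hker ⟨x, hKR hx⟩).mpr hx, smul_zero] at h0
    exact (hker ⟨h • x, hR h hh x (hKR hx)⟩).mp h0
  have hmap : ∀ {A : Type} [AddCommGroup A] [DistribMulAction G A] {S : AddSubgroup A},
      StableUnder H S → StableUnder H (S.map (nsmulAddMonoidHom p)) := by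
    rintro A _ _ S hS h hh _ ⟨x, hx, rfl⟩
    exact ⟨h • x, hS h hh x hx, smul_comm p h x⟩
  have hR' : StableUnder H R' := fun h hh x hx => by
    rw [← hrange] at hx ⊢
    obtain ⟨y, rfl⟩ := hx
    exact ⟨_, heq h hh y⟩
  have hpR : R.map π ≤ R := by rintro _ ⟨x, hx, rfl⟩; exact R.nsmul_mem hx p
  set S := K ⊔ R.map π
  have hS : StableUnder H S := fun h hh x hx => by
    obtain ⟨a, ha, b, hb, rfl⟩ := AddSubgroup.mem_sup.mp hx
    rw [smul_add]
    exact AddSubgroup.add_mem_sup (hK h hh a ha) (hmap hR h hh b hb)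
  rw [cQ_mul hA (S := S) le_sup_right (sup_le hKR hpR) hR hS (hmap hR) hfix
    (fun x hx => ⟨x, hx, rfl⟩)]
  congr 1
  · symm
    refine cQ_congr hK (hmap hK) (hmap hR) (by rintro _ ⟨x, hx, rfl⟩; exact K.nsmul_mem hx p)
      ((QuotientAddGroup.mk' (R.map π)).comp K.subtype) (fun y => ?_) (fun x => ?_)
      (fun h hh x y hy => mk_smul_eq (hmap hR) hh hy)
    · constructor
      · rintro ⟨x, rfl⟩; exact ⟨x, AddSubgroup.mem_sup_left x.2, rfl⟩
      · rintro ⟨x, hx, rfl⟩
        obtain ⟨a, ha, b, hb, rfl⟩ := AddSubgroup.mem_sup.mp hx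
        refine ⟨⟨a, ha⟩, QuotientAddGroup.eq.mpr ?_⟩
        show -a + (a + b) ∈ _
        rwa [neg_add_cancel_left]
    · refine (QuotientAddGroup.eq_zero_iff _).trans ⟨?_, fun hx => AddSubgroup.map_mono hKR hx⟩
      rintro ⟨y, hy, hyx⟩
      have h1 : p • f ⟨y, hy⟩ = 0 := by
        rw [← map_nsmul, show p • (⟨y, hy⟩ : R) = ⟨(x : B), hKR x.2⟩ from Subtype.ext hyx]
        exact (hker _).mpr x.2
      exact ⟨y, (hker ⟨y, hy⟩).mp (htf _ h1), hyx⟩
  · refine cQ_congr hR hS (hmap hR') (sup_le hKR hpR)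
      ((QuotientAddGroup.mk' (R'.map π')).comp f) (fun y => ?_) (fun x => ?_) (fun h hh x y hy => ?_)
    · constructor
      · rintro ⟨x, rfl⟩; exact ⟨f x, hrange ▸ ⟨x, rfl⟩, rfl⟩
      · rintro ⟨z, hz, rfl⟩
        rw [← hrange] at hz
        obtain ⟨x, rfl⟩ := hz
        exact ⟨x, rfl⟩
    · refine (QuotientAddGroup.eq_zero_iff _).trans ⟨?_, fun hx => ?_⟩
      · rintro ⟨z, hz, hzx⟩
        rw [← hrange] at hz
        obtain ⟨y, rfl⟩ := hz
        have h1 : f (x - p • y) = 0 := by
          rw [map_sub, map_nsmul, sub_eq_zero]; exact hzx.symm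
        have h2 := (hker _).mp h1
        have e : (x : B) = ((x - p • y : R) : B) + p • (y : B) := by push_cast; abel
        rw [e]
        exact AddSubgroup.add_mem_sup h2 ⟨_, y.2, rfl⟩
      · obtain ⟨a, ha, _, ⟨b, hb, rfl⟩, hab⟩ := AddSubgroup.mem_sup.mp hx
        refine ⟨f ⟨b, hb⟩, hrange ▸ ⟨_, rfl⟩, ?_⟩
        rw [show x = ⟨a, hKR ha⟩ + p • (⟨b, hb⟩ : R) from Subtype.ext hab.symm, map_add, map_nsmul,
          (hker ⟨a, hKR ha⟩).mpr ha, zero_add]
        rfl
    · show ((f _ : B') : B' ⧸ R'.map π') = _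
      rw [heq h hh x]
      exact mk_smul_eq (hmap hR') hh hy

/-- Integer functions on the places and the Galois group. -/
def PlaceFun : Type := Place → GQ → ℤ

instance : AddCommGroup PlaceFun := inferInstanceAs (AddCommGroup (Place → GQ → ℤ))

instance : DistribMulAction GQ PlaceFun where
  smul σ f := fun v g => f v (g * σ)
  one_smul f := funext fun v => funext fun g => congrArg (f v) (mul_one g)
  mul_smul σ τ f := funext fun v => funext fun g => congrArg (f v) (mul_assoc g σ τ).symm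
  smul_zero _ := rfl
  smul_add _ _ _ := rfl

theorem placeFun_smul_apply (σ : GQ) (f : PlaceFun) (v : Place) (g : GQ) :
    (σ • f) v g = f v (g * σ) := rfl

/-- The permutation module on the places above `s` of the field of `N`. -/
def permModule (s : Finset Place) (N : Subgroup GQ) : AddSubgroup PlaceFun where
  carrier := {f | (∀ v ∉ s, ∀ g, f v g = 0) ∧
    ∀ v, ∀ d ∈ decomp v, ∀ g, ∀ n ∈ N, f v (d * g * n) = f v g}
  zero_mem' := ⟨fun _ _ _ => rfl, fun _ _ _ _ _ _ => rfl⟩
  add_mem' hf hf' := ⟨fun v hv g => by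
      show _ + _ = (0 : ℤ)
      rw [hf.1 v hv g, hf'.1 v hv g, add_zero],
    fun v d hd g n hn => congrArg₂ (· + ·) (hf.2 v d hd g n hn) (hf'.2 v d hd g n hn)⟩
  neg_mem' hf := ⟨fun v hv g => by
      show -_ = (0 : ℤ)
      rw [hf.1 v hv g, neg_zero],
    fun v d hd g n hn => congrArg (- ·) (hf.2 v d hd g n hn)⟩

variable {H N : Subgroup GQ} {s : Finset Place}

theorem stable_permModule (hle : N ≤ H) (hn : (N.subgroupOf H).Normal) :
    StableUnder H (permModule s N) := fun h hh f hf =>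
  ⟨fun v hv g => hf.1 v hv _, fun v d hd g n hnN => by
    show f v (d * g * n * h) = f v (g * h)
    have h1 : h⁻¹ * n * h ∈ N := by
      simpa using! Subgroup.mem_subgroupOf.mp
        (hn.conj_mem ⟨n, hle hnN⟩ (Subgroup.mem_subgroupOf.mpr hnN) ⟨h⁻¹, inv_mem hh⟩)
    rw [show d * g * n * h = d * (g * h) * (h⁻¹ * n * h) by group]
    exact hf.2 v d hd (g * h) _ h1⟩

theorem fixed_permModule : ∀ n ∈ N, ∀ f ∈ permModule s N, n • f = f := fun n hn f hf =>
  funext fun v => funext fun g => by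
    have h := hf.2 v 1 (one_mem _) g n hn
    rw [one_mul] at h
    exact h

theorem placeFun_nsmul_apply (k : ℕ) (f : PlaceFun) (v : Place) (g : GQ) :
    (k • f) v g = (k : ℤ) * f v g := by
  show k • f v g = _
  rw [nsmul_eq_mul]

theorem placeFun_eq_zero_of_nsmul {k : ℕ} (hk : k ≠ 0) {f : PlaceFun} (h : k • f = 0) : f = 0 :=
  funext fun v => funext fun g => by
    have h1 := congrFun (congrFun h v) g
    rw [placeFun_nsmul_apply] at h1
    exact (mul_eq_zero.mp h1).resolve_left (by exact_mod_cast hk)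

variable {M : Type} [AddCommGroup M] [DistribMulAction GQ M]

/-- The count of a permutation module. -/
theorem cQ_permModule (hA : CoprimeAct p H N M) (hfin : ∀ v, Finite (PlacesAbove v H)) :
    cQ M H (permModule s N) ((permModule s N).map (nsmulAddMonoidHom p)) =
      ∏ v ∈ s, ∏ᶠ w : PlacesAbove v H,
        Nat.card {φ : M →+ ZMod p //
          ∀ h ∈ H, (Quotient.out w : GQ) * h * (Quotient.out w : GQ)⁻¹ ∈ decomp v →
            ∀ m, φ (h • m) = φ m} := by
  classical
  set P := permModule s N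
  set T := P.map (nsmulAddMonoidHom p)
  have hP := stable_permModule (s := s) hA.le hA.normal
  let Q : AddSubgroup (Place → GQ → ZMod p) :=
    { carrier := {F | (∀ v ∉ s, ∀ g, F v g = 0) ∧
        ∀ v, ∀ d ∈ decomp v, ∀ g, ∀ n ∈ N, F v (d * g * n) = F v g}
      zero_mem' := ⟨fun _ _ _ => rfl, fun _ _ _ _ _ _ => rfl⟩
      add_mem' := fun {f f'} hf hf' => ⟨fun v hv g => by
          show f v g + f' v g = 0
          rw [hf.1 v hv g, hf'.1 v hv g, add_zero],
        fun v d hd g n hn => congrArg₂ (· + ·) (hf.2 v d hd g n hn) (hf'.2 v d hd g n hn)⟩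
      neg_mem' := fun {f} hf => ⟨fun v hv g => by
          show -f v g = 0
          rw [hf.1 v hv g, neg_zero],
        fun v d hd g n hn => congrArg (- ·) (hf.2 v d hd g n hn)⟩ }
  let red : P →+ Q := AddMonoidHom.mk'
    (fun f => ⟨fun v g => ((f : PlaceFun) v g : ZMod p),
      fun v hv g => (congrArg (fun z : ℤ => (z : ZMod p)) (f.2.1 v hv g)).trans Int.cast_zero,
      fun v d hd g n hn => congrArg (fun z : ℤ => (z : ZMod p)) (f.2.2 v d hd g n hn)⟩)
    fun f f' => Subtype.ext (funext fun v => funext fun g => Int.cast_add _ _)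
  haveI : NeZero p := ⟨hpf.out.ne_zero⟩
  have hred : Function.Surjective red := fun F => by
    refine ⟨⟨fun v g => ((F.1 v g).val : ℤ), fun v hv g =>
      (congrArg (fun z : ZMod p => ((z.val : ℕ) : ℤ)) (F.2.1 v hv g)).trans (by simp),
      fun v d hd g n hn => congrArg (fun z : ZMod p => ((z.val : ℕ) : ℤ)) (F.2.2 v d hd g n hn)⟩,
      Subtype.ext (funext fun v => funext fun g => ?_)⟩
    show ((((F.1 v g).val : ℤ)) : ZMod p) = _
    rw [Int.cast_natCast, ZMod.natCast_zmod_val]
  have hker : ∀ f : P, red f = 0 ↔ (f : PlaceFun) ∈ T := fun f => by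
    constructor
    · intro h
      have hd : ∀ v g, (p : ℤ) ∣ (f : PlaceFun) v g := fun v g =>
        (ZMod.intCast_zmod_eq_zero_iff_dvd _ _).mp (congrFun (congrFun (congrArg Subtype.val h) v) g)
      let f₀ : PlaceFun := fun v g => (f : PlaceFun) v g / p
      refine ⟨f₀, ⟨fun v hv g => (congrArg (fun z : ℤ => z / (p : ℤ)) (f.2.1 v hv g)).trans
        (Int.zero_ediv _), fun v d hd g n hn => congrArg (fun z : ℤ => z / (p : ℤ)) (f.2.2 v d hd g n hn)⟩, ?_⟩
      funext v g
      exact (placeFun_nsmul_apply p f₀ v g).trans (Int.mul_ediv_cancel' (hd v g))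
    · rintro ⟨f', -, h⟩
      refine Subtype.ext (funext fun v => funext fun g => ?_)
      show (((f : PlaceFun) v g : ℤ) : ZMod p) = 0
      rw [← h]
      show (((p • f') v g : ℤ) : ZMod p) = 0
      rw [placeFun_nsmul_apply, Int.cast_mul, Int.cast_natCast, ZMod.natCast_self, zero_mul]
  obtain ⟨e, he⟩ := exists_quotEquiv red hred hker
  let Pt := P.map (QuotientAddGroup.mk' T)
  have hT : StableUnder H T := by
    rintro h hh _ ⟨x, hx, rfl⟩
    exact ⟨h • x, hP h hh x hx, smul_comm p h x⟩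
  have he' : ∀ (f : PlaceFun) (hf : f ∈ P) (v : Place) (g : GQ),
      (e ⟨(f : PlaceFun ⧸ T), f, hf, rfl⟩).1 v g = ((f v g : ℤ) : ZMod p) := fun f hf v g => by
    rw [he ⟨f, hf⟩]; rfl
  let Cond := {F : M →+ Q // ∀ h ∈ H, ∀ m v g, (F (h • m)).1 v g = (F m).1 v (g * h)}
  have h1 : cQ M H P T = Nat.card Cond := by
    refine Nat.card_congr
      ⟨fun φ => ⟨e.toAddMonoidHom.comp (φ.1.codRestrict Pt φ.2.1), fun h hh m v g => ?_⟩,
        fun F => ⟨(Pt.subtype.comp e.symm.toAddMonoidHom).comp F.1, fun m => (e.symm _).2,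
          fun h hh m x hx => ?_⟩,
        fun φ => Subtype.ext (AddMonoidHom.ext fun m =>
          congrArg Subtype.val (e.symm_apply_apply (φ.1.codRestrict Pt φ.2.1 m))),
        fun F => Subtype.ext (AddMonoidHom.ext fun m => e.apply_symm_apply _)⟩
    · obtain ⟨a, ha, ha'⟩ := φ.2.1 m
      show (e (φ.1.codRestrict Pt φ.2.1 (h • m))).1 v g = (e (φ.1.codRestrict Pt φ.2.1 m)).1 v (g * h)
      rw [show φ.1.codRestrict Pt φ.2.1 (h • m) = ⟨((h • a : PlaceFun) : PlaceFun ⧸ T), h • a,
          hP h hh a ha, rfl⟩ from Subtype.ext (φ.2.2 h hh m a ha'.symm),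
        show φ.1.codRestrict Pt φ.2.1 m = ⟨(a : PlaceFun ⧸ T), a, ha, rfl⟩ from Subtype.ext ha'.symm,
        he' _ (hP h hh a ha), he' a ha]
      rfl
    · obtain ⟨z, hz, hz'⟩ := (e.symm (F.1 m)).2
      have hxz : (x : PlaceFun ⧸ T) = (z : PlaceFun ⧸ T) := hx.symm.trans hz'.symm
      rw [mk_smul_eq hT hh hxz]
      refine congrArg Subtype.val (e.symm_apply_eq.mpr ?_ :
        e.symm (F.1 (h • m)) = (⟨((h • z : PlaceFun) : PlaceFun ⧸ T), h • z, hP h hh z hz, rfl⟩ : Pt))
      refine Subtype.ext (funext fun v => funext fun g => ?_)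
      rw [F.2 h hh, he' _ (hP h hh z hz), placeFun_smul_apply, ← he' z hz,
        show (⟨(z : PlaceFun ⧸ T), z, hz, rfl⟩ : Pt) = e.symm (F.1 m) from Subtype.ext hz',
        e.apply_symm_apply]
  rw [h1]
  haveI := hfin
  letI := fun v => Fintype.ofFinite (PlacesAbove v H)
  simp only [finprod_eq_prod_of_fintype]
  rw [← Finset.prod_coe_sort, ← Finset.prod_congr rfl fun (v : s) _ => Nat.card_pi, ← Nat.card_pi]
  -- coordinates at the representatives
  have hdec : ∀ (v : Place) (g : GQ), ∃ d h : GQ, d ∈ decomp v ∧ h ∈ H ∧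
      g = d * (DoubleCoset.mk (decomp v) H g).out * h := fun v g => by
    obtain ⟨d, h, hd, hh, e'⟩ := DoubleCoset.mk_out_eq_mul (decomp v) H g
    exact ⟨d⁻¹, h⁻¹, inv_mem hd, inv_mem hh, by rw [e']; group⟩
  choose dd hh hdd hhh hdh using hdec
  refine Nat.card_congr
    { toFun := fun F v w => ⟨AddMonoidHom.mk' (fun m => (F.1 m).1 v.1 (Quotient.out w))
          (fun m m' => by rw [map_add]; rfl), fun h hH hd m => ?_⟩
      invFun := fun ψ => ⟨AddMonoidHom.mk' (fun m => ⟨fun v g =>
          if hv : v ∈ s then (ψ ⟨v, hv⟩ (DoubleCoset.mk (decomp v) H g)).1 (hh v g • m) else 0,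
          fun v hv g => dif_neg hv, fun v d hd g n hnN => ?_⟩)
          (fun m m' => Subtype.ext (funext fun v => funext fun g => ?_)), fun h hH m v g => ?_⟩
      left_inv := fun F => ?_
      right_inv := fun ψ => ?_ }
  · show (F.1 (h • m)).1 v.1 (Quotient.out w) = (F.1 m).1 v.1 (Quotient.out w)
    rw [F.2 h hH,
      show (Quotient.out w : GQ) * h = (Quotient.out w * h * (Quotient.out w)⁻¹) * Quotient.out w * 1 by
        group]
    exact (F.1 m).2.2 v.1 _ hd _ 1 (one_mem _)
  · dsimp only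
    split_ifs with hv
    · have hw : DoubleCoset.mk (decomp v) H (d * g * n) = DoubleCoset.mk (decomp v) H g :=
        (DoubleCoset.eq _ _ _ _).mpr ⟨d⁻¹, inv_mem hd, n⁻¹, inv_mem (hA.le hnN), by group⟩
      have e1 := hdh v (d * g * n)
      have e2 := hdh v g
      rw [hw] at e1
      rw [hw]
      set r : GQ := (DoubleCoset.mk (decomp v) H g).out
      -- the two decompositions differ by the stabiliser of the representative
      set k := hh v (d * g * n) * n⁻¹ * (hh v g)⁻¹ with hk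
      have hkd : r * k * r⁻¹ ∈ decomp v := by
        have e3 : r * k * r⁻¹ = (dd v (d * g * n))⁻¹ * d * dd v g := by
          rw [hk]
          calc r * (hh v (d * g * n) * n⁻¹ * (hh v g)⁻¹) * r⁻¹
              = (dd v (d * g * n))⁻¹ * (dd v (d * g * n) * r * hh v (d * g * n)) * n⁻¹ *
                  (hh v g)⁻¹ * r⁻¹ := by group
            _ = (dd v (d * g * n))⁻¹ * (d * (dd v g * r * hh v g) * n) * n⁻¹ * (hh v g)⁻¹ * r⁻¹ := by
                rw [← e1, ← e2]
            _ = _ := by group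
        rw [e3]
        exact mul_mem (mul_mem (inv_mem (hdd _ _)) hd) (hdd _ _)
      have hkH : k ∈ H := mul_mem (mul_mem (hhh _ _) (inv_mem (hA.le hnN))) (inv_mem (hhh _ _))
      have h2 := (ψ ⟨v, hv⟩ (DoubleCoset.mk (decomp v) H g)).2 k hkH hkd (hh v g • m)
      rw [hk, ← mul_smul, inv_mul_cancel_right, mul_smul, hA.trivial _ (inv_mem hnN)] at h2
      exact h2
    · rfl
  · show (if hv : v ∈ s then _ else (0 : ZMod p)) =
      (if hv : v ∈ s then _ else (0 : ZMod p)) + (if hv : v ∈ s then _ else (0 : ZMod p))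
    split_ifs with hv
    · rw [smul_add, map_add]
    · exact (add_zero _).symm
  · show (if hv : v ∈ s then _ else (0 : ZMod p)) = (if hv : v ∈ s then _ else (0 : ZMod p))
    split_ifs with hv
    · have hw : DoubleCoset.mk (decomp v) H (g * h) = DoubleCoset.mk (decomp v) H g :=
        (DoubleCoset.eq _ _ _ _).mpr ⟨1, one_mem _, h⁻¹, inv_mem hH, by group⟩
      have e1 := hdh v (g * h)
      have e2 := hdh v g
      rw [hw] at e1
      rw [hw]
      set r : GQ := (DoubleCoset.mk (decomp v) H g).out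
      set k := hh v (g * h) * h⁻¹ * (hh v g)⁻¹ with hk
      have hkd : r * k * r⁻¹ ∈ decomp v := by
        have e3 : r * k * r⁻¹ = (dd v (g * h))⁻¹ * dd v g := by
          rw [hk]
          calc r * (hh v (g * h) * h⁻¹ * (hh v g)⁻¹) * r⁻¹
              = (dd v (g * h))⁻¹ * (dd v (g * h) * r * hh v (g * h)) * h⁻¹ *
                  (hh v g)⁻¹ * r⁻¹ := by group
            _ = (dd v (g * h))⁻¹ * (dd v g * r * hh v g * h) * h⁻¹ * (hh v g)⁻¹ * r⁻¹ := by
                rw [← e1, ← e2]
            _ = _ := by group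
        rw [e3]
        exact mul_mem (inv_mem (hdd _ _)) (hdd _ _)
      have hkH : k ∈ H := mul_mem (mul_mem (hhh _ _) (inv_mem hH)) (inv_mem (hhh _ _))
      have h2 := (ψ ⟨v, hv⟩ (DoubleCoset.mk (decomp v) H g)).2 k hkH hkd (hh v g • h • m)
      rw [hk, ← mul_smul, inv_mul_cancel_right, ← mul_smul, inv_mul_cancel_right] at h2
      exact h2.symm
    · rfl
  · refine Subtype.ext (AddMonoidHom.ext fun m => Subtype.ext (funext fun v => funext fun g => ?_))
    show (if hv : v ∈ s then (F.1 (hh v g • m)).1 v (DoubleCoset.mk (decomp v) H g).out else 0) = _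
    split_ifs with hv
    · rw [F.2 _ (hhh v g)]
      conv_rhs => rw [hdh v g, mul_assoc]
      have := (F.1 m).2.2 v _ (hdd v g) ((DoubleCoset.mk (decomp v) H g).out * hh v g) 1 (one_mem _)
      rw [mul_one] at this
      exact this.symm
    · exact ((F.1 m).2.1 v hv g).symm
  · refine funext fun v => funext fun w => Subtype.ext (AddMonoidHom.ext fun m => ?_)
    show (if hv : v.1 ∈ s then (ψ ⟨v.1, hv⟩ (DoubleCoset.mk (decomp v.1) H (Quotient.out w))).1
      (hh v.1 (Quotient.out w) • m) else 0) = _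
    rw [dif_pos v.2]
    have hw : DoubleCoset.mk (decomp v.1) H (Quotient.out w) = w := DoubleCoset.out_eq' _ _ w
    have e1 := hdh v.1 (Quotient.out w)
    rw [hw] at e1
    rw [hw]
    have hkd : (Quotient.out w : GQ) * hh v.1 (Quotient.out w) * (Quotient.out w : GQ)⁻¹ ∈ decomp v.1 := by
      have e3 : (Quotient.out w : GQ) * hh v.1 (Quotient.out w) * (Quotient.out w : GQ)⁻¹ =
          (dd v.1 (Quotient.out w))⁻¹ := by
        set r : GQ := Quotient.out w
        calc r * hh v.1 r * r⁻¹ = (dd v.1 r)⁻¹ * (dd v.1 r * r * hh v.1 r) * r⁻¹ := by group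
          _ = (dd v.1 r)⁻¹ := by rw [← e1, mul_inv_cancel_right]
      rw [e3]
      exact inv_mem (hdd _ _)
    exact (ψ v w).2 _ (hhh _ _) hkd m

/-- The trivial module. -/
def TrivMod (p : ℕ) : Type := ZMod p

instance (p : ℕ) : AddCommGroup (TrivMod p) := inferInstanceAs (AddCommGroup (ZMod p))

instance trivModAction (p : ℕ) : DistribMulAction GQ (TrivMod p) where
  smul _ m := m
  one_smul _ := rfl
  mul_smul _ _ _ := rfl
  smul_zero _ := rfl
  smul_add _ _ _ := rfl

theorem trivMod_smul (p : ℕ) (g : GQ) (m : TrivMod p) : g • m = m := rfl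

end Fermat.Agent.GD
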