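import Fermat.Agent.GD.Local.Degree
import Fermat.Agent.EC.Unramified
import Fermat.Agent.GD.Global.ClassFormation.Frob

/-!
# Places of a number field inside `ℚ̄` and primes of its ring of integers
-/

set_option autoImplicit false
set_option linter.style.haveILetI false
set_option linter.unusedSectionVars false

noncomputable section

namespace Fermat.Agent.GD

open Fermat.Agent.Galois
open scoped Pointwise NumberField

local notation "ℚb" => AlgebraicClosure ℚ

/-- The prime of a number field under a place. -/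
def primeUnder (F : IntermediateField ℚ ℚb) (A : ValuationSubring ℚb) : Ideal (𝓞 F) :=
  (placeCenter A).comap (EC.ringOfIntegersToZBar F)

variable {F : IntermediateField ℚ ℚb} {A A' : ValuationSubring ℚb}

theorem mem_primeUnder {a : 𝓞 F} :
    a ∈ primeUnder F A ↔ A.valuation ((a : F) : ℚb) < 1 := by
  rw [primeUnder, Ideal.mem_comap, mem_placeCenter_iff, ValuationSubring.mem_nonunits_iff]
  rfl

theorem valuation_int_le_one (A : ValuationSubring ℚb) (a : 𝓞 F) :
    A.valuation ((a : F) : ℚb) ≤ 1 :=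
  (A.valuation_le_one_iff _).mpr (integralClosure_le A (EC.ringOfIntegersToZBar F a))

theorem valuation_int_eq_one_of_not_mem {a : 𝓞 F} (ha : a ∉ primeUnder F A) :
    A.valuation ((a : F) : ℚb) = 1 :=
  le_antisymm (valuation_int_le_one A a) (not_lt.mp fun h => ha (mem_primeUnder.mpr h))

theorem natCast_mem_primeUnder {ℓ : ℕ} (hℓ : ℓ.Prime) (hA : A.LiesOverPrime ℓ) (n : ℕ) :
    (n : 𝓞 F) ∈ primeUnder F A ↔ ℓ ∣ n := by
  rw [primeUnder, Ideal.mem_comap, map_natCast, ← Int.cast_natCast,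
    intCast_mem_placeCenter hℓ hA, Int.natCast_dvd_natCast]

theorem valuation_natCast_eq_one {ℓ : ℕ} (hℓ : ℓ.Prime) (hA : A.LiesOverPrime ℓ) {n : ℕ}
    (hn : ¬ ℓ ∣ n) : A.valuation (n : ℚb) = 1 := by
  have h := valuation_int_eq_one_of_not_mem (F := (⊥ : IntermediateField ℚ ℚb))
    ((natCast_mem_primeUnder hℓ hA n).not.mpr hn)
  simpa using h

theorem isMaximal_primeUnder [NumberField F] {ℓ : ℕ} (hℓ : ℓ.Prime) (hA : A.LiesOverPrime ℓ) :
    (primeUnder F A).IsMaximal := by
  haveI : (placeCenter A).IsPrime := inferInstance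
  haveI hp : (primeUnder F A).IsPrime := Ideal.comap_isPrime _ _
  refine hp.isMaximal fun h => ?_
  have h1 := (natCast_mem_primeUnder (F := F) hℓ hA ℓ).mpr dvd_rfl
  rw [h, Ideal.mem_bot] at h1
  exact hℓ.ne_zero (by exact_mod_cast h1)

/-- Places with the same prime below are conjugate over the field. -/
theorem exists_smul_eq_of_primeUnder_eq [FiniteDimensional ℚ F] {ℓ : ℕ} (hℓ : ℓ.Prime)
    (hA : A.LiesOverPrime ℓ) (hA' : A'.LiesOverPrime ℓ)
    (h : primeUnder F A = primeUnder F A') :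
    ∃ g : GQ, g ∈ F.fixingSubgroup ∧ A' = g • A := by
  set f := EC.ringOfIntegersToZBar F with hf
  let H : Subgroup GQ := F.fixingSubgroup
  letI : Algebra (𝓞 F) ZBar := f.toAlgebra
  have hfixf : ∀ (h : H) (a : 𝓞 F), h • f a = f a := fun h a =>
    Subtype.ext (((IntermediateField.mem_fixingSubgroup_iff _ _).1 h.2)
      ((a : F) : ℚb) (a : F).2)
  haveI : SMulCommClass H (𝓞 F) ZBar := ⟨fun h a b => by
    show h • (f a * b) = f a * (h • b)
    rw [smul_mul', hfixf]⟩
  haveI : Algebra.IsInvariant (𝓞 F) ZBar H := ⟨fun b hb => by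
    have hmem : (b : ℚb) ∈ F := by
      rw [← InfiniteGalois.fixedField_fixingSubgroup F, IntermediateField.mem_fixedField_iff]
      exact fun g hg => congrArg Subtype.val (hb ⟨g, hg⟩)
    have hint : _root_.IsIntegral ℤ (⟨(b : ℚb), hmem⟩ : F) :=
      (isIntegral_algHom_iff (IsScalarTower.toAlgHom ℤ F ℚb)
        (algebraMap F ℚb).injective).1 b.2
    exact ⟨⟨⟨(b : ℚb), hmem⟩, hint⟩, Subtype.ext rfl⟩⟩
  haveI : CompactSpace H := isCompact_iff_compactSpace.1
    (IntermediateField.fixingSubgroup_isClosed F).isCompact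
  letI : TopologicalSpace ZBar := ⊥
  haveI : DiscreteTopology ZBar := ⟨rfl⟩
  haveI : ContinuousSMul GQ ZBar := by
    refine ContinuousSMul.mk (continuous_prod_of_discrete_right.mpr fun b => ?_)
    refine (IsLocallyConstant.iff_exists_open _).mpr (fun σ => ?_) |>.continuous
    refine ⟨σ • (MulAction.stabilizer GQ (b : ℚb) : Set GQ),
      (stabilizer_isOpen_of_isIntegral _).leftCoset σ, ⟨1, one_mem _, mul_one σ⟩, ?_⟩
    rintro _ ⟨τ, hτ, rfl⟩
    apply Subtype.ext
    simp only [SetLike.mem_coe, MulAction.mem_stabilizer_iff] at hτ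
    simp [mul_smul, hτ]
  haveI : ContinuousSMul H ZBar := ⟨by
    have := (continuous_smul (M := GQ) (X := ZBar)).comp
      ((continuous_subtype_val (p := fun g => g ∈ H)).prodMap continuous_id)
    exact this⟩
  obtain ⟨g, hg⟩ := Algebra.IsInvariant.exists_smul_of_under_eq_of_profinite (A := 𝓞 F) (G := H)
    (placeCenter A) (placeCenter A') h
  refine ⟨g, g.2, ?_⟩
  have hσA : ((g : GQ) • A).LiesOverPrime ℓ := liesOverPrime_smul hA _
  have hcen : placeCenter ((g : GQ) • A) = placeCenter A' := by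
    rw [hg]
    ext b
    rw [Ideal.mem_pointwise_smul_iff_inv_smul_mem, mem_placeCenter_iff, mem_placeCenter_iff,
      ← mem_nonunits_smul_iff (g : GQ) A]
    show _ ↔ (g : GQ) (((g : GQ)⁻¹ • b : ZBar) : ℚb) ∈ _
    rw [show (((g : GQ)⁻¹ • b : ZBar) : ℚb) = (g : GQ)⁻¹ (b : ℚb) from rfl,
      ← AlgEquiv.mul_apply, mul_inv_cancel, AlgEquiv.one_apply]
  apply SetLike.ext
  intro x
  exact ⟨le_of_center_eq hℓ hA' hcen x, le_of_center_eq hℓ hσA hcen.symm x⟩

/-- The value at a translated place. -/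
theorem valuation_smul_lt_one_iff (g : GQ) (A : ValuationSubring ℚb) (x : ℚb) :
    A.valuation (g x) < 1 ↔ (g⁻¹ • A).valuation x < 1 := by
  rw [← ValuationSubring.mem_nonunits_iff, ← ValuationSubring.mem_nonunits_iff]
  conv_lhs => rw [← smul_inv_smul g A]
  exact mem_nonunits_smul_iff g _ x

theorem mem_primeUnder_smul {a : 𝓞 F} (g : GQ) :
    a ∈ primeUnder F (g⁻¹ • A) ↔ A.valuation (g ((a : F) : ℚb)) < 1 := by
  rw [mem_primeUnder, valuation_smul_lt_one_iff]

theorem valuation_smul_int_le_one (g : GQ) (a : 𝓞 F) : A.valuation (g ((a : F) : ℚb)) ≤ 1 :=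
  (A.valuation_le_one_iff _).mpr (integralClosure_le A
    (g • EC.ringOfIntegersToZBar F a))

variable {q : Nat.Primes}

/-- A nonzero element fixed by an unramified open subgroup of a decomposition group has the
value of an integral power of the prime. -/
theorem exists_val_eq_zpow_of_inertia {H : Subgroup (LD (some q)).G} {U : Subgroup (LD (some q)).G}
    (hU : Unram U) (hle : U ≤ H) {y : ℚb} (hy : y ∈ fieldOf H) (hy0 : y ≠ 0) :
    ∃ k : ℤ, (placeAt q).valuation y = (placeAt q).valuation ((q : ℕ) : ℚb) ^ k := by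
  have hH : (LD (some q)).IsOpen H := by
    obtain ⟨N, hN, hNU⟩ := hU.1
    exact ⟨N, hN, hNU.trans hle⟩
  haveI := finiteDimensional_fieldOf hH
  obtain ⟨f, -, hdvd, -, U₀, hU₀, hdeg⟩ := exists_degree H hH
  have hf : H.index = f := by
    have h := hdeg (U ⊓ U₀) (hU.inf hU₀) inf_le_right
    rwa [sup_eq_left.mpr (inf_le_left.trans hle)] at h
  let x : (fieldOf H)ˣ := Units.mk0 ⟨y, hy⟩ fun h => hy0 (congrArg Subtype.val h)
  obtain ⟨k, hk⟩ := hdvd (Additive.ofMul x)
  refine ⟨k, ?_⟩
  have h1 := ordE_spec q.2 (placeAt_liesOverPrime q) (fieldOf H) (Additive.ofMul x)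
  rw [hk, finrank_fieldOf hH, hf, mul_comm, zpow_mul, zpow_natCast] at h1
  haveI := finiteIndex_of_isOpen hH
  exact (pow_left_inj₀ zero_le zero_le (hf ▸ Subgroup.FiniteIndex.index_ne_zero)).mp h1

end Fermat.Agent.GD
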